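import Mathlib
import Fermat.Agent.TWP.Place
import Fermat.Prelude.Def_GaloisRep_ComplexConjugation

/-!
# P2, block 2a: Selmer spaces of a mod 2 representation (definitions)

`V` is a two dimensional `𝔽₂`-space with an action `ρ` of `G_ℚ` with image `GL(V) = S₃`.
Everything is phrased with level-constant cocycles `G_ℚ → V`.

* `Selmer ρ S Q`: cocycles unramified outside `S ∪ Q` whose restriction to `D_P` takes values in
  `V^{D_P}` up to a coboundary for `P` over `S ∪ Q`;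
* `SelmerRel ρ S Q q`: the same without any condition at `q`;
* `Hyp ρ S`: the standing hypotheses on `ρ`;
* `Iso ρ S`: the isotropy (global reciprocity) statement (blocks 2a-dict + 2b).
-/

set_option autoImplicit false
set_option linter.unusedSectionVars false

noncomputable section

namespace Fermat.Agent.P2.Sel

local notation "Ω" => AlgebraicClosure ℚ

/-- the absolute Galois group of `ℚ` -/
abbrev GQ := (AlgebraicClosure ℚ ≃ₐ[ℚ] AlgebraicClosure ℚ)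

variable {V : Type} [AddCommGroup V] [Module (ZMod 2) V]

/-- cocycle condition -/
def IsCoc (ρ : Representation (ZMod 2) GQ V) (f : GQ → V) : Prop :=
  ∀ g h : GQ, f (g * h) = f g + ρ g (f h)

/-- right invariance under the Galois group of a finite extension of `ℚ` -/
def LevelConst {X : Type} (f : GQ → X) : Prop :=
  ∃ L : IntermediateField ℚ Ω, FiniteDimensional ℚ L ∧
    ∀ g h : GQ, (∀ x ∈ L, h x = x) → f (g * h) = f g

/-- the coboundary of `x` -/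
def cob (ρ : Representation (ZMod 2) GQ V) : V →ₗ[ZMod 2] (GQ → V) where
  toFun x g := ρ g x - x
  map_add' x y := by
    funext g
    show ρ g (x + y) - (x + y) = (ρ g x - x) + (ρ g y - y)
    rw [map_add]; abel
  map_smul' c x := by
    funext g
    show ρ g (c • x) - c • x = c • (ρ g x - x)
    rw [map_smul, smul_sub]

@[simp] theorem cob_apply (ρ : Representation (ZMod 2) GQ V) (x : V) (g : GQ) :
    cob ρ x g = ρ g x - x := rfl

/-- `f` vanishes on the inertia group of `P`. -/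
def UnrAt (P : ValuationSubring Ω) (f : GQ → V) : Prop :=
  ∀ g ∈ P.inertiaSubgroupIn ℚ, f g = 0

/-- Up to a coboundary, `f` takes values in `V^{D_P}` on `D_P`. -/
def LineAt (ρ : Representation (ZMod 2) GQ V) (P : ValuationSubring Ω) (f : GQ → V) : Prop :=
  ∃ x : V, ∀ g ∈ P.decompositionSubgroup ℚ, ∀ h ∈ P.decompositionSubgroup ℚ,
    ρ h (f g - (ρ g x - x)) = f g - (ρ g x - x)

theorem LineAt.add {ρ : Representation (ZMod 2) GQ V} {P : ValuationSubring Ω} {f f' : GQ → V}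
    (h : LineAt ρ P f) (h' : LineAt ρ P f') : LineAt ρ P (f + f') := by
  obtain ⟨x, hx⟩ := h
  obtain ⟨x', hx'⟩ := h'
  refine ⟨x + x', fun g hg h hh => ?_⟩
  have e : (f + f') g - (ρ g (x + x') - (x + x')) =
      (f g - (ρ g x - x)) + (f' g - (ρ g x' - x')) := by
    rw [Pi.add_apply, map_add]; abel
  rw [e, map_add, hx g hg h hh, hx' g hg h hh]

theorem LineAt.smul {ρ : Representation (ZMod 2) GQ V} {P : ValuationSubring Ω} {f : GQ → V}
    (c : ZMod 2) (h : LineAt ρ P f) : LineAt ρ P (c • f) := by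
  obtain ⟨x, hx⟩ := h
  refine ⟨c • x, fun g hg h hh => ?_⟩
  have e : (c • f) g - (ρ g (c • x) - c • x) = c • (f g - (ρ g x - x)) := by
    rw [Pi.smul_apply, map_smul, ← smul_sub, ← smul_sub]
  rw [e, map_smul, hx g hg h hh]

theorem LevelConst.add {f f' : GQ → V} (h : LevelConst f) (h' : LevelConst f') :
    LevelConst (f + f') := by
  obtain ⟨L, hL, h⟩ := h
  obtain ⟨L', hL', h'⟩ := h'
  refine ⟨L ⊔ L', IntermediateField.finiteDimensional_sup L L', fun g s hs => ?_⟩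
  rw [Pi.add_apply, Pi.add_apply, h g s fun x hx => hs x ((le_sup_left : L ≤ L ⊔ L') hx),
    h' g s fun x hx => hs x ((le_sup_right : L' ≤ L ⊔ L') hx)]

theorem LevelConst.smul {f : GQ → V} (c : ZMod 2) (h : LevelConst f) : LevelConst (c • f) := by
  obtain ⟨L, hL, h⟩ := h
  exact ⟨L, hL, fun g s hs => by rw [Pi.smul_apply, Pi.smul_apply, h g s hs]⟩

/-- Cocycles satisfying the Selmer conditions at all primes `ℓ` with `ℓ ∈ A`. -/
def SelOn (ρ : Representation (ZMod 2) GQ V) (S Q : Finset ℕ) (A : Set ℕ) :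
    Submodule (ZMod 2) (GQ → V) where
  carrier := {f | IsCoc ρ f ∧ LevelConst f ∧
    (∀ ℓ : ℕ, ℓ.Prime → ℓ ∈ A → ℓ ∉ S → ℓ ∉ Q → ∀ P : ValuationSubring Ω, P.LiesOverPrime ℓ →
      UnrAt P f) ∧
    (∀ ℓ : ℕ, ℓ ∈ A → (ℓ ∈ S ∨ ℓ ∈ Q) → ∀ P : ValuationSubring Ω, P.LiesOverPrime ℓ →
      LineAt ρ P f)}
  zero_mem' := ⟨fun g h => by simp, ⟨⊥, inferInstance, fun _ _ _ => rfl⟩,
    fun _ _ _ _ _ _ _ _ _ => rfl,
    fun _ _ _ _ _ => ⟨0, fun g _ h _ => by simp⟩⟩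
  add_mem' := by
    rintro f f' ⟨h1, h2, h3, h4⟩ ⟨h1', h2', h3', h4'⟩
    refine ⟨fun g h => ?_, h2.add h2', fun ℓ hℓ hA hS hQ P hP g hg => ?_,
      fun ℓ hA hS P hP => (h4 ℓ hA hS P hP).add (h4' ℓ hA hS P hP)⟩
    · rw [Pi.add_apply, h1, h1', Pi.add_apply, Pi.add_apply, map_add]; abel
    · rw [Pi.add_apply, h3 ℓ hℓ hA hS hQ P hP g hg, h3' ℓ hℓ hA hS hQ P hP g hg, add_zero]
  smul_mem' := by
    rintro c f ⟨h1, h2, h3, h4⟩
    refine ⟨fun g h => ?_, h2.smul c, fun ℓ hℓ hA hS hQ P hP g hg => ?_,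
      fun ℓ hA hS P hP => (h4 ℓ hA hS P hP).smul c⟩
    · rw [Pi.smul_apply, h1, Pi.smul_apply, Pi.smul_apply, map_smul, smul_add]
    · rw [Pi.smul_apply, h3 ℓ hℓ hA hS hQ P hP g hg, smul_zero]

/-- The Selmer space (as a space of cocycles, containing the coboundaries). -/
def Selmer (ρ : Representation (ZMod 2) GQ V) (S Q : Finset ℕ) : Submodule (ZMod 2) (GQ → V) :=
  SelOn ρ S Q Set.univ

/-- The Selmer space relaxed at `q`. -/
def SelmerRel (ρ : Representation (ZMod 2) GQ V) (S Q : Finset ℕ) (q : ℕ) :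
    Submodule (ZMod 2) (GQ → V) :=
  SelOn ρ S Q {ℓ | ℓ ≠ q}

/-- The standing hypotheses on `ρ` and the set `S` of bad primes. -/
structure Hyp (ρ : Representation (ZMod 2) GQ V) (S : Finset ℕ) : Prop where
  finrank_eq : Module.finrank (ZMod 2) V = 2
  two_mem : 2 ∈ S
  prime : ∀ ℓ ∈ S, ℓ.Prime
  smooth : ∃ L : IntermediateField ℚ Ω, FiniteDimensional ℚ L ∧
    ∀ h : GQ, (∀ x ∈ L, h x = x) → ρ h = 1
  surj : ∀ A : V ≃ₗ[ZMod 2] V, ∃ g : GQ, ρ g = A.toLinearMap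
  unram : ∀ ℓ : ℕ, ℓ.Prime → ℓ ∉ S → ∀ P : ValuationSubring Ω, P.LiesOverPrime ℓ →
    ∀ g ∈ P.inertiaSubgroupIn ℚ, ρ g = 1
  /-- at the bad primes inertia acts non trivially and `D_P` fixes a nonzero vector -/
  ram : ∀ ℓ ∈ S, ∀ P : ValuationSubring Ω, P.LiesOverPrime ℓ →
    (∃ t ∈ P.inertiaSubgroupIn ℚ, ρ t ≠ 1) ∧
    ∃ e : V, e ≠ 0 ∧ ∀ g ∈ P.decompositionSubgroup ℚ, ρ g e = e
  conj : ρ complexConjugation ≠ 1

/-- `ℓ` is a good prime whose Frobenius elements act as transpositions. -/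
def TransFrob (ρ : Representation (ZMod 2) GQ V) (S : Finset ℕ) (ℓ : ℕ) : Prop :=
  ℓ.Prime ∧ ℓ ∉ S ∧ ∀ P : ValuationSubring Ω, P.LiesOverPrime ℓ →
    ∀ φ : GQ, P.IsFrobeniusAt φ ℓ → ρ φ ≠ 1 ∧ ρ φ * ρ φ = 1

/-- **Isotropy** (consequence of the global reciprocity law): if `v ∈ Selmer ρ S Q` is unramified at
`q` with `v(φ) ∉ (φ - 1) V`, then every `w` satisfying all Selmer conditions except at `q` is
unramified at `q`. To be proved from `Hyp ρ S` (blocks 2a-dict and 2b). -/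
def Iso (ρ : Representation (ZMod 2) GQ V) (S : Finset ℕ) : Prop :=
  ∀ (Q : Finset ℕ) (q : ℕ), (∀ ℓ ∈ Q, TransFrob ρ S ℓ) → TransFrob ρ S q → q ∉ Q →
    ∀ v ∈ Selmer ρ S Q, (∃ P : ValuationSubring Ω, P.LiesOverPrime q ∧
      ∃ φ : GQ, P.IsFrobeniusAt φ q ∧ ∀ x : V, v φ ≠ ρ φ x - x) →
    ∀ w ∈ SelmerRel ρ S Q q, ∀ P : ValuationSubring Ω, P.LiesOverPrime q → UnrAt P w

theorem mem_SelOn {ρ : Representation (ZMod 2) GQ V} {S Q : Finset ℕ} {A : Set ℕ} {f : GQ → V} :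
    f ∈ SelOn ρ S Q A ↔ IsCoc ρ f ∧ LevelConst f ∧
    (∀ ℓ : ℕ, ℓ.Prime → ℓ ∈ A → ℓ ∉ S → ℓ ∉ Q → ∀ P : ValuationSubring Ω, P.LiesOverPrime ℓ →
      UnrAt P f) ∧
    (∀ ℓ : ℕ, ℓ ∈ A → (ℓ ∈ S ∨ ℓ ∈ Q) → ∀ P : ValuationSubring Ω, P.LiesOverPrime ℓ →
      LineAt ρ P f) := Iff.rfl

end Fermat.Agent.P2.Sel
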