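import Fermat.Agent.P2.Sel.Main
import Fermat.Agent.P2.Defs
import Fermat.Agent.Lib.Cyclotomic

/-!
# P2, block 2a: from the Galois data of the curve to the killing sets
-/

set_option autoImplicit false
set_option linter.unusedSectionVars false

noncomputable section

open Pointwise Module Matrix

namespace Fermat.Agent.P2.Sel

local notation "Ω" => AlgebraicClosure ℚ

/-! ### Reduction modulo `2^n` -/

theorem toZMod_eq_zero_iff {x : ℤ_[2]} : PadicInt.toZMod x = 0 ↔ (2 : ℤ_[2]) ∣ x := by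
  rw [← RingHom.mem_ker, PadicInt.ker_toZMod, PadicInt.maximalIdeal_eq_span_p,
    Ideal.mem_span_singleton]
  rfl

theorem toZModPow_eq_zero_iff {n : ℕ} {x : ℤ_[2]} :
    PadicInt.toZModPow n x = 0 ↔ (2 : ℤ_[2]) ^ n ∣ x := by
  rw [← RingHom.mem_ker, PadicInt.ker_toZModPow, Ideal.mem_span_singleton]
  rfl

/-- the projection `ℤ/2ⁿ → ℤ/2` -/
def prj (n : ℕ) (hn : n ≠ 0) : ZMod (2 ^ n) →+* ZMod 2 := ZMod.castHom (dvd_pow_self 2 hn) (ZMod 2)

theorem prj_surjective (n : ℕ) (hn : n ≠ 0) : Function.Surjective (prj n hn) :=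
  ZMod.ringHom_surjective _

theorem toZModPow_surjective (n : ℕ) :
    Function.Surjective (PadicInt.toZModPow n : ℤ_[2] →+* ZMod (2 ^ n)) :=
  ZMod.ringHom_surjective _

theorem prj_comp (n : ℕ) (hn : n ≠ 0) :
    (prj n hn).comp (PadicInt.toZModPow n) = (PadicInt.toZMod : ℤ_[2] →+* ZMod 2) := by
  apply ZMod.ringHom_eq_of_ker_eq
  rw [PadicInt.ker_toZMod]
  exact IsLocalRing.ker_eq_maximalIdeal _ ((prj_surjective n hn).comp (toZModPow_surjective n))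

theorem prj_toZModPow (n : ℕ) (hn : n ≠ 0) (x : ℤ_[2]) :
    prj n hn (PadicInt.toZModPow n x) = PadicInt.toZMod x := RingHom.congr_fun (prj_comp n hn) x

instance (n : ℕ) [NeZero n] : Nontrivial (ZMod (2 ^ n)) :=
  haveI : Fact (1 < 2 ^ n) := ⟨Nat.one_lt_two_pow (NeZero.ne n)⟩
  ZMod.nontrivial _

theorem isLocalRing_zmod (n : ℕ) (hn : n ≠ 0) : IsLocalRing (ZMod (2 ^ n)) := by
  have : NeZero n := ⟨hn⟩
  exact IsLocalRing.of_surjective' (PadicInt.toZModPow n) (toZModPow_surjective n)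

theorem int_surjective (n : ℕ) : Function.Surjective (Int.castRingHom (ZMod (2 ^ n))) :=
  ZMod.intCast_surjective

/-- the level `2^n` reduction -/
def lvlRep (ρ : GQ →* GL (Fin 2) ℤ_[2]) (n : ℕ) : GQ →* GL (Fin 2) (ZMod (2 ^ n)) :=
  (Matrix.GeneralLinearGroup.map (PadicInt.toZModPow n)).comp ρ

theorem lvlRep_apply (ρ : GQ →* GL (Fin 2) ℤ_[2]) (n : ℕ) (g : GQ) :
    (lvlRep ρ n g).1 = (ρ g).1.map (PadicInt.toZModPow n) := rfl

theorem lvlRep_eq_iff (ρ : GQ →* GL (Fin 2) ℤ_[2]) (n : ℕ) (g h : GQ) :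
    lvlRep ρ n g = lvlRep ρ n h ↔ ∀ i j, (2 : ℤ_[2]) ^ n ∣ ((ρ g).1 - (ρ h).1) i j := by
  rw [Matrix.GeneralLinearGroup.ext_iff]
  refine forall_congr' fun i => forall_congr' fun j => ?_
  rw [← toZModPow_eq_zero_iff, Matrix.sub_apply, map_sub, sub_eq_zero]
  rfl

theorem toMatrix_resRep (ρ : GQ →* GL (Fin 2) ℤ_[2]) (g : GQ) :
    LinearMap.toMatrix (Pi.basisFun (ZMod 2) (Fin 2)) (Pi.basisFun (ZMod 2) (Fin 2))
      (resRep ρ g) = (ρ g).1.map PadicInt.toZMod := by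
  rw [LinearMap.toMatrix_eq_toMatrix']
  exact LinearMap.toMatrix'_toLin' _

theorem resRep_eq_iff (ρ : GQ →* GL (Fin 2) ℤ_[2]) (g : GQ) (T : Module.End (ZMod 2) (Fin 2 → ZMod 2)) :
    resRep ρ g = T ↔ (ρ g).1.map PadicInt.toZMod =
      LinearMap.toMatrix (Pi.basisFun (ZMod 2) (Fin 2)) (Pi.basisFun (ZMod 2) (Fin 2)) T := by
  rw [← toMatrix_resRep]
  exact (LinearMap.toMatrix _ _).injective.eq_iff.symm

theorem resRep_eq_one_iff (ρ : GQ →* GL (Fin 2) ℤ_[2]) (g : GQ) :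
    resRep ρ g = 1 ↔ ∀ i j, (2 : ℤ_[2]) ∣ ((ρ g).1 - 1) i j := by
  rw [resRep_eq_iff, LinearMap.toMatrix_one, ← Matrix.ext_iff]
  refine forall_congr' fun i => forall_congr' fun j => ?_
  rw [← toZMod_eq_zero_iff, Matrix.sub_apply, map_sub, sub_eq_zero]
  rw [Matrix.map_apply, Matrix.one_apply, Matrix.one_apply]
  split_ifs <;> simp

theorem resRep_apply (ρ : GQ →* GL (Fin 2) ℤ_[2]) (g : GQ) (x : Fin 2 → ZMod 2) :
    resRep ρ g x = ((ρ g).1.map PadicInt.toZMod).mulVec x := rfl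

theorem reduces_lvlRep (ρ : GQ →* GL (Fin 2) ℤ_[2]) (n : ℕ) (hn : n ≠ 0) :
    Reduces (Pi.basisFun (ZMod 2) (Fin 2)) (resRep ρ) (prj n hn) (lvlRep ρ n) := by
  intro g
  rw [toMatrix_resRep, lvlRep_apply]
  ext i j
  exact (prj_toZModPow n hn _).symm

/-! ### The hypotheses for the Galois data of the curve -/

variable {S : Finset ℕ} {a : ℕ → ℤ} (D : GalData S a)

theorem isOddAt_not_of_inertia {P : ValuationSubring Ω} {q : ℕ} {g : GQ}
    (hg : g ∈ P.inertiaSubgroupIn ℚ) : ¬ IsOddAt P q g := by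
  rintro ⟨hD, x, -, hx⟩
  obtain ⟨τ, hτ, hτg⟩ := hg
  apply hx
  have e : (⟨g, hD⟩ : P.decompositionSubgroup ℚ) = τ := Subtype.ext hτg.symm
  rw [e]
  have h1 : MulSemiringAction.toRingAut (P.decompositionSubgroup ℚ) (IsLocalRing.ResidueField P) τ =
      1 := hτ
  exact RingEquiv.congr_fun h1 x

theorem eta_of_inertia {P : ValuationSubring Ω} {q : ℕ} {g : GQ}
    (hg : g ∈ P.inertiaSubgroupIn ℚ) {A : Type*} [One A] (e : A) : eta P q e g = 1 :=
  if_neg (isOddAt_not_of_inertia hg)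

theorem smooth_resRep : ∃ L : IntermediateField ℚ Ω, FiniteDimensional ℚ L ∧
    ∀ h : GQ, (∀ x ∈ L, h x = x) → resRep D.ρ h = 1 := by
  obtain ⟨L, hL, h⟩ := D.cont 1
  refine ⟨L, hL, fun g hg => ?_⟩
  rw [resRep_eq_one_iff]
  intro i j
  simpa using h g hg i j

theorem eta_mod_two (P : ValuationSubring Ω) (q : ℕ) (g : GQ) :
    PadicInt.toZMod (eta P q (D.s q : ℤ_[2]) g) = 1 := by
  unfold eta
  split_ifs
  · rcases D.s_eq q with h | h
    · rw [h]; simp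
    · rw [h]; simp
  · simp

theorem det_mod_two (g : GQ) : PadicInt.toZMod ((D.ρ g).1.det) = 1 := by
  have h1 : IsUnit ((D.ρ g).1.det) := (Matrix.isUnit_iff_isUnit_det _).mp (D.ρ g).isUnit
  have h2 := h1.map (PadicInt.toZMod : ℤ_[2] →+* ZMod 2)
  have h3 : ∀ x : ZMod 2, IsUnit x → x = 1 := by decide
  exact h3 _ h2

/-- the Steinberg relation modulo two -/
theorem st_mod_two {q : ℕ} (hq : q ∈ S) {P : ValuationSubring Ω} (hP : P.LiesOverPrime q)
    {g h : GQ} (hg : g ∈ P.decompositionSubgroup ℚ) (hh : h ∈ P.decompositionSubgroup ℚ) :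
    (resRep D.ρ g - 1) * (resRep D.ρ h - 1) = 0 := by
  have h1 := D.st q hq P hP g hg h hh
  have h2 := congrArg (fun X : Matrix (Fin 2) (Fin 2) ℤ_[2] => X.map PadicInt.toZMod) h1
  simp only at h2
  apply (LinearMap.toMatrix (Pi.basisFun (ZMod 2) (Fin 2)) (Pi.basisFun (ZMod 2) (Fin 2))).injective
  rw [LinearMap.toMatrix_mul, map_sub, map_sub, toMatrix_resRep, toMatrix_resRep,
    LinearMap.toMatrix_one, map_zero]
  have h0 : (0 : Matrix (Fin 2) (Fin 2) ℤ_[2]).map PadicInt.toZMod =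
      (0 : Matrix (Fin 2) (Fin 2) (ZMod 2)) := by
    ext i j; simp
  rw [h0, Matrix.map_mul] at h2
  have key : ∀ (X : Matrix (Fin 2) (Fin 2) ℤ_[2]) (c : ℤ_[2]), PadicInt.toZMod c = 1 →
      (X - algebraMap ℤ_[2] (Matrix (Fin 2) (Fin 2) ℤ_[2]) c).map PadicInt.toZMod =
        X.map PadicInt.toZMod - 1 := by
    intro X c hc
    ext i j
    rw [Matrix.map_apply, Matrix.sub_apply, Matrix.sub_apply, map_sub, Matrix.map_apply,
      Matrix.algebraMap_matrix_apply, Matrix.one_apply]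
    split_ifs with hij
    · rw [Algebra.algebraMap_self_apply, hc]
    · rw [map_zero]
  rw [key _ _ (by rw [map_mul, eta_mod_two, det_mod_two, one_mul]),
    key _ _ (eta_mod_two D P q h)] at h2
  exact h2

theorem hyp_of_galData (hS : ∀ q ∈ S, q.Prime) (h2 : 2 ∈ S) : Hyp (resRep D.ρ) S where
  finrank_eq := by simp
  two_mem := h2
  prime := hS
  smooth := smooth_resRep D
  surj := by
    intro A
    have hdet : IsUnit (LinearMap.toMatrix (Pi.basisFun (ZMod 2) (Fin 2))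
        (Pi.basisFun (ZMod 2) (Fin 2)) A.toLinearMap).det :=
      LinearEquiv.isUnit_det A _ _
    obtain ⟨g, hg⟩ := D.surj (Matrix.GeneralLinearGroup.mk'' _ hdet)
    refine ⟨g, ?_⟩
    rw [resRep_eq_iff]
    ext i j
    exact hg i j
  unram := by
    intro ℓ hℓ hS P hP g hg
    rw [resRep_eq_one_iff, D.unram ℓ hℓ hS P hP g hg]
    intro i j
    simp
  ram := by
    intro ℓ hℓ P hP
    obtain ⟨t, ht, i, j, hij⟩ := D.ram ℓ hℓ P hP
    have ht1 : resRep D.ρ t ≠ 1 := by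
      rw [Ne, resRep_eq_one_iff]
      intro h
      exact hij (h i j)
    refine ⟨⟨t, ht, ht1⟩, ?_⟩
    have htD : t ∈ P.decompositionSubgroup ℚ := by
      obtain ⟨τ, -, rfl⟩ := ht
      exact τ.2
    obtain ⟨x, hx⟩ : ∃ x, (resRep D.ρ t - 1) x ≠ 0 := by
      by_contra hcon
      push Not at hcon
      apply ht1
      rw [← sub_eq_zero]
      exact LinearMap.ext hcon
    refine ⟨(resRep D.ρ t - 1) x, hx, fun g hg => ?_⟩
    have h3 := LinearMap.congr_fun (st_mod_two D hℓ hP hg htD) x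
    have h4 : resRep D.ρ g ((resRep D.ρ t - 1) x) - (resRep D.ρ t - 1) x = 0 := h3
    exact sub_eq_zero.mp h4
  conj := by
    obtain ⟨i, j, hij⟩ := D.conj
    rw [Ne, resRep_eq_one_iff]
    intro h
    exact hij (h i j)

theorem levelHyp_of_galData {n : ℕ} (hn : n ≠ 0) : LevelHyp (resRep D.ρ) S (lvlRep D.ρ n) where
  ker_le := (reduces_lvlRep D.ρ n hn).ker_le
  smooth := by
    obtain ⟨L, hL, h⟩ := D.cont n
    refine ⟨L, hL, fun g hg => ?_⟩
    rw [← map_one (lvlRep D.ρ n), lvlRep_eq_iff, map_one, Units.val_one]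
    exact h g hg
  unram := by
    intro ℓ hℓ hS P hP g hg
    rw [lvlRep, MonoidHom.comp_apply, D.unram ℓ hℓ hS P hP g hg, map_one]

theorem det_of_inertia {q : ℕ} (hq : q.Prime) (hq2 : q ≠ 2) {P : ValuationSubring Ω}
    (hP : P.LiesOverPrime q) {t : GQ} (ht : t ∈ P.inertiaSubgroupIn ℚ) (n : ℕ) :
    (2 : ℤ_[2]) ^ n ∣ (D.ρ t).1.det - 1 := by
  have h1 := D.cyc n t 1 (fun μ hμ => by
    have hne : NeZero (2 ^ n) := ⟨pow_ne_zero _ two_ne_zero⟩
    have hqn : ¬ q ∣ 2 ^ n := fun h => hq2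
      ((Nat.prime_dvd_prime_iff_eq hq Nat.prime_two).mp (hq.dvd_of_dvd_pow h))
    rw [Cyclotomic.cyc_spec (2 ^ n) t hμ, Cyclotomic.cyc_inertia (n := 2 ^ n) hq hqn P hP ht]
    have h1 := Cyclotomic.pow_val_natCast (2 ^ n) hμ 1
    rw [Nat.cast_one] at h1
    exact h1)
  simpa using h1

theorem genHyp_of_galData (hS : ∀ q ∈ S, q.Prime) (h2 : 2 ∈ S) {q : ℕ} (hq : q ∈ S) (hq2 : q ≠ 2)
    {n : ℕ} (hn : n ≠ 0) : GenHyp (resRep D.ρ) S (lvlRep D.ρ n) := by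
  have hq' := hS q hq
  have := isLocalRing_zmod n hn
  obtain ⟨P, hP⟩ : ∃ P : ValuationSubring Ω, P.LiesOverPrime q :=
    FrobExists.exists_liesOverPrime Ω hq'
  obtain ⟨t, ht, i, j, hij⟩ := D.ram q hq P hP
  have ht1 : resRep D.ρ t ≠ 1 := by
    rw [Ne, resRep_eq_one_iff]
    intro h
    exact hij (h i j)
  have htD : t ∈ P.decompositionSubgroup ℚ := by
    obtain ⟨τ, -, rfl⟩ := ht
    exact τ.2
  refine genHyp_of_transvection (hyp_of_galData D hS h2) (int_surjective n) (prj_surjective n hn)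
    (reduces_lvlRep D.ρ n hn) hq hP htD ?_ ht1
  have h1 := D.st q hq P hP t htD t htD
  rw [eta_of_inertia ht, one_mul, map_one] at h1
  have h3 := congrArg (fun X : Matrix (Fin 2) (Fin 2) ℤ_[2] => X.map (PadicInt.toZModPow n)) h1
  simp only at h3
  have h0 : (0 : Matrix (Fin 2) (Fin 2) ℤ_[2]).map (PadicInt.toZModPow n) =
      (0 : Matrix (Fin 2) (Fin 2) (ZMod (2 ^ n))) := by
    ext i j; simp
  have key : ∀ (X : Matrix (Fin 2) (Fin 2) ℤ_[2]) (c : ℤ_[2]), PadicInt.toZModPow n c = 1 →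
      (X - algebraMap ℤ_[2] (Matrix (Fin 2) (Fin 2) ℤ_[2]) c).map (PadicInt.toZModPow n) =
        X.map (PadicInt.toZModPow n) - 1 := by
    intro X c hc
    ext i j
    rw [Matrix.map_apply, Matrix.sub_apply, Matrix.sub_apply, map_sub, Matrix.map_apply,
      Matrix.algebraMap_matrix_apply, Matrix.one_apply]
    split_ifs with hij
    · rw [Algebra.algebraMap_self_apply, hc]
    · rw [map_zero]
  have hd : PadicInt.toZModPow n ((D.ρ t).1.det) = 1 := by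
    have h4 := toZModPow_eq_zero_iff.mpr (det_of_inertia D hq' hq2 hP ht n)
    rwa [map_sub, map_one, sub_eq_zero] at h4
  have k1 := key (D.ρ t).1 _ hd
  have k2 := key (D.ρ t).1 1 (map_one _)
  rw [map_one] at k2
  rw [h0, Matrix.map_mul, k1, k2] at h3
  exact h3

/-- **Block 2** from isotropy, for one representation. -/
theorem block2_of_iso' (S : Finset ℕ) (a : ℕ → ℤ) (D : GalData S a) (hS : ∀ q ∈ S, q.Prime)
    (h2 : 2 ∈ S) (hodd : ∃ q ∈ S, q ≠ 2) (hiso : Iso (resRep D.ρ) S) :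
    ∃ r : ℕ, ∀ n B : ℕ, ∃ Q : Finset ℕ, Q.card = r ∧ (∀ q ∈ Q, AuxPrime D.ρ S n q) ∧
      (∀ q ∈ Q, B < q) ∧
      ∀ ξ ∈ Selmer (resRep D.ρ) S Q, ∃ x : Fin 2 → ZMod 2, ξ = cob (resRep D.ρ) x := by
  have H := hyp_of_galData D hS h2
  obtain ⟨q₀, hq₀, hq₀2⟩ := hodd
  refine ⟨selRank (resRep D.ρ) S, fun n B => ?_⟩
  obtain ⟨Q, hc, hQ, hsel⟩ := exists_killing H hiso
    (levelHyp_of_galData D (Nat.succ_ne_zero n))
    (genHyp_of_galData D hS h2 hq₀ hq₀2 (Nat.succ_ne_zero n)) (Finset.range (B + 1))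
  refine ⟨Q, hc, fun q hq => ?_, fun q hq => ?_, fun ξ hξ => ?_⟩
  · obtain ⟨⟨a1, a2, a3⟩, -⟩ := hQ q hq
    refine ⟨a1, a2, fun P hP φ hφ => ?_⟩
    obtain ⟨g, hg⟩ := a3 P hP φ hφ
    rw [lvlRep_eq_iff] at hg
    exact ⟨g, fun i j => (pow_dvd_pow _ (Nat.le_succ n)).trans (hg i j)⟩
  · have h3 := (hQ q hq).2
    rw [Finset.mem_range] at h3
    omega
  · rw [hsel] at hξ
    obtain ⟨x, hx⟩ := hξ
    exact ⟨x, hx.symm⟩

/-- **Block 2** from isotropy. -/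
theorem block2_of_iso (hiso : ∀ (ρ : Representation (ZMod 2) GQ (Fin 2 → ZMod 2)) (S : Finset ℕ),
    Hyp ρ S → Iso ρ S) (S : Finset ℕ) (a : ℕ → ℤ) (D : GalData S a) (hS : ∀ q ∈ S, q.Prime)
    (h2 : 2 ∈ S) (hodd : ∃ q ∈ S, q ≠ 2) :
    ∃ r : ℕ, ∀ n B : ℕ, ∃ Q : Finset ℕ, Q.card = r ∧ (∀ q ∈ Q, AuxPrime D.ρ S n q) ∧
      (∀ q ∈ Q, B < q) ∧
      ∀ ξ ∈ Selmer (resRep D.ρ) S Q, ∃ x : Fin 2 → ZMod 2, ξ = cob (resRep D.ρ) x :=
  block2_of_iso' S a D hS h2 hodd (hiso _ _ (hyp_of_galData D hS h2))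

end Fermat.Agent.P2.Sel
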