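import Fermat.Agent.P2.Sel.Coc
import Fermat.Agent.TWP.FlatLoc.FrobDec

/-!
# P2, block 2a: the Selmer space drops by one dimension when a killing prime is added
-/

set_option autoImplicit false
set_option linter.unusedSectionVars false

noncomputable section

open Pointwise Module

namespace Fermat.Agent.P2.Sel

local notation "Ω" => AlgebraicClosure ℚ

variable {V : Type} [AddCommGroup V] [Module (ZMod 2) V]

/-! ### Transpositions -/

section Trans

variable {T : Module.End (ZMod 2) V}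

theorem sub_one_sq (hT : T * T = 1) : (T - 1) * (T - 1) = 0 := by
  refine LinearMap.ext fun x => ?_
  have h1 : T (T x) = x := LinearMap.congr_fun hT x
  show T (T x - x) - (T x - x) = 0
  rw [map_sub, h1, sub_eq_add, sub_eq_add, sub_eq_add, add_comm x (T x)]
  exact add_self _

theorem range_le_ker (hT : T * T = 1) : LinearMap.range (T - 1) ≤ LinearMap.ker (T - 1) := by
  rintro _ ⟨x, rfl⟩
  exact LinearMap.congr_fun (sub_one_sq hT) x

variable (hV : finrank (ZMod 2) V = 2)

include hV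

theorem finrank_range (h1 : T ≠ 1) (hT : T * T = 1) :
    finrank (ZMod 2) (LinearMap.range (T - 1)) = 1 := by
  have : FiniteDimensional (ZMod 2) V := Module.finite_of_finrank_pos (by rw [hV]; norm_num)
  have h2 := LinearMap.finrank_range_add_finrank_ker (T - 1)
  have h3 := Submodule.finrank_mono (range_le_ker hT)
  have h4 : finrank (ZMod 2) (LinearMap.range (T - 1)) ≠ 0 := by
    intro h0
    rw [Submodule.finrank_eq_zero] at h0
    exact h1 (sub_eq_zero.mp (LinearMap.range_eq_bot.mp h0))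
  omega

theorem range_eq_ker (h1 : T ≠ 1) (hT : T * T = 1) :
    LinearMap.range (T - 1) = LinearMap.ker (T - 1) := by
  have : FiniteDimensional (ZMod 2) V := Module.finite_of_finrank_pos (by rw [hV]; norm_num)
  apply Submodule.eq_of_le_of_finrank_le (range_le_ker hT)
  have h2 := LinearMap.finrank_range_add_finrank_ker (T - 1)
  have h3 := finrank_range hV h1 hT
  omega

theorem finrank_quotient_range (h1 : T ≠ 1) (hT : T * T = 1) :
    finrank (ZMod 2) (V ⧸ LinearMap.range (T - 1)) = 1 := by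
  have : FiniteDimensional (ZMod 2) V := Module.finite_of_finrank_pos (by rw [hV]; norm_num)
  have h2 := Submodule.finrank_quotient_add_finrank (LinearMap.range (T - 1))
  have h3 := finrank_range hV h1 hT
  omega

end Trans

variable {ρ : Representation (ZMod 2) GQ V} {S : Finset ℕ}

/-- A level-constant cocycle vanishing on inertia and at a Frobenius element vanishes on the
decomposition group. -/
theorem eq_zero_on_decomposition {f : GQ → V} (hf : IsCoc ρ f) (hl : LevelConst f) {q : ℕ}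
    (hq : q.Prime) {P : ValuationSubring Ω} (hP : P.LiesOverPrime q) {φ : GQ}
    (hφ : P.IsFrobeniusAt φ q) (h1 : UnrAt P f) (h2 : f φ = 0) {g : GQ}
    (hg : g ∈ P.decompositionSubgroup ℚ) : f g = 0 := by
  obtain ⟨L, hL, h⟩ := hl
  obtain ⟨n, σ, hσ, hn⟩ := TWFlat.exists_frob_mul_inertia hq hP hφ hg L
  have h3 : f ((φ ^ n * σ) * ((φ ^ n * σ)⁻¹ * g)) = f (φ ^ n * σ) := by
    refine h _ _ fun x hx => ?_
    show (φ ^ n * σ)⁻¹ (g x) = x
    rw [hn x hx]
    show ((φ ^ n * σ)⁻¹ * (φ ^ n * σ)) x = x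
    rw [inv_mul_cancel]
    rfl
  rw [mul_inv_cancel_left] at h3
  have h4 : ∀ m : ℕ, f (φ ^ m) = 0 := by
    intro m
    induction m with
    | zero => rw [pow_zero]; exact hf.one
    | succ m ih => rw [pow_succ, hf, ih, h2, map_zero, add_zero]
  rw [h3, hf, h4, h1 σ hσ, map_zero, add_zero]

/-- For unramified classes the line condition at a prime with transposition Frobenius says
`f φ ∈ (φ - 1) V`. -/
theorem lineAt_iff_of_unr (H : Hyp ρ S) {q : ℕ} (hq : TransFrob ρ S q)
    {P : ValuationSubring Ω} (hP : P.LiesOverPrime q) {φ : GQ} (hφ : P.IsFrobeniusAt φ q)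
    {f : GQ → V} (hf : IsCoc ρ f) (hl : LevelConst f) (hu : UnrAt P f) :
    LineAt ρ P f ↔ f φ ∈ LinearMap.range (ρ φ - 1) := by
  obtain ⟨hqp, hqS, hT⟩ := hq
  obtain ⟨hT1, hT2⟩ := hT P hP φ hφ
  have hφD : φ ∈ P.decompositionSubgroup ℚ := hφ.mem_decompositionSubgroup
  constructor
  · rintro ⟨x, hx⟩
    have h1 := hx φ hφD φ hφD
    have h2 : f φ - (ρ φ x - x) ∈ LinearMap.range (ρ φ - 1) := by
      rw [range_eq_ker H.finrank_eq hT1 hT2, LinearMap.mem_ker, LinearMap.sub_apply, h1,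
        Module.End.one_apply, sub_self]
    have h3 : (ρ φ x - x) ∈ LinearMap.range (ρ φ - 1) := ⟨x, rfl⟩
    have h4 := Submodule.add_mem _ h2 h3
    rwa [sub_add_cancel] at h4
  · rintro ⟨x, hx⟩
    have hx' : ρ φ x - x = f φ := hx
    have h1 : ∀ g ∈ P.decompositionSubgroup ℚ, (f - cob ρ x) g = 0 := by
      intro g hg
      refine eq_zero_on_decomposition (ρ := ρ) ?_ ?_ hqp hP hφ ?_ ?_ hg
      · intro a b
        rw [Pi.sub_apply, Pi.sub_apply, Pi.sub_apply, hf, isCoc_cob x, map_sub]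
        abel
      · have h2 := (levelConst_cob H x).smul (-1 : ZMod 2)
        have h3 := hl.add h2
        have e : f + (-1 : ZMod 2) • cob ρ x = f - cob ρ x := by
          rw [neg_smul, one_smul, sub_eq_add_neg]
        rwa [e] at h3
      · intro i hi
        rw [Pi.sub_apply, hu i hi, cob_apply, H.unram q hqp hqS P hP i hi, Module.End.one_apply,
          sub_self, sub_self]
      · rw [Pi.sub_apply, cob_apply, hx', sub_self]
    refine ⟨x, fun g hg h _ => ?_⟩
    have h2 := h1 g hg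
    rw [Pi.sub_apply, cob_apply] at h2
    rw [h2, map_zero]

/-- Elements of the relaxed Selmer space unramified at `q` lie in the Selmer space. -/
theorem mem_Selmer_of_rel {Q : Finset ℕ} {q : ℕ} (hqS : q ∉ S) (hqQ : q ∉ Q)
    {f : GQ → V} (hf : f ∈ SelmerRel ρ S Q q)
    (hu : ∀ P : ValuationSubring Ω, P.LiesOverPrime q → UnrAt P f) : f ∈ Selmer ρ S Q := by
  obtain ⟨h1, h2, h3, h4⟩ := hf
  refine ⟨h1, h2, fun ℓ hℓ _ hS hQ P hP => ?_, fun ℓ _ hℓ P hP => ?_⟩
  · by_cases hℓq : ℓ = q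
    · subst hℓq
      exact hu P hP
    · exact h3 ℓ hℓ hℓq hS hQ P hP
  · refine h4 ℓ ?_ hℓ P hP
    rintro rfl
    exact hℓ.elim hqS hqQ

theorem Selmer_insert_le_rel {Q : Finset ℕ} {q : ℕ} :
    Selmer ρ S (insert q Q) ≤ SelmerRel ρ S Q q := by
  rintro f ⟨h1, h2, h3, h4⟩
  refine ⟨h1, h2, fun ℓ hℓ hq hS hQ P hP => h3 ℓ hℓ trivial hS ?_ P hP,
    fun ℓ _ hℓ P hP => h4 ℓ trivial ?_ P hP⟩
  · rw [Finset.mem_insert, not_or]
    exact ⟨hq, hQ⟩
  · exact hℓ.imp_right fun h => Finset.mem_insert_of_mem h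

/-- **The dimension drops by one.** -/
theorem finrank_insert (H : Hyp ρ S) {Q : Finset ℕ} {q : ℕ} (hq : TransFrob ρ S q) (hqQ : q ∉ Q)
    (hiso : ∀ w ∈ SelmerRel ρ S Q q, ∀ P : ValuationSubring Ω, P.LiesOverPrime q → UnrAt P w)
    {v : GQ → V} (hv : v ∈ Selmer ρ S Q) {P : ValuationSubring Ω} (hP : P.LiesOverPrime q)
    {φ : GQ} (hφ : P.IsFrobeniusAt φ q) (hvφ : v φ ∉ LinearMap.range (ρ φ - 1)) :
    finrank (ZMod 2) (Selmer ρ S (insert q Q)) + 1 = finrank (ZMod 2) (Selmer ρ S Q) := by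
  have := finiteDimensional_V H
  have := finiteDimensional_Selmer H Q
  obtain ⟨hT1, hT2⟩ := hq.2.2 P hP φ hφ
  let F : Selmer ρ S Q →ₗ[ZMod 2] V ⧸ LinearMap.range (ρ φ - 1) :=
    (Submodule.mkQ _).comp ((LinearMap.proj φ).comp (Selmer ρ S Q).subtype)
  have hF : ∀ w : Selmer ρ S Q, F w = 0 ↔ w.1 φ ∈ LinearMap.range (ρ φ - 1) := fun w =>
    Submodule.Quotient.mk_eq_zero _
  have hker : Selmer ρ S (insert q Q) = (LinearMap.ker F).map (Selmer ρ S Q).subtype := by
    apply le_antisymm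
    · intro w hw
      have hrel := Selmer_insert_le_rel hw
      have hu := hiso w hrel
      have hwS := mem_Selmer_of_rel hq.2.1 hqQ hrel hu
      refine ⟨⟨w, hwS⟩, ?_, rfl⟩
      rw [SetLike.mem_coe, LinearMap.mem_ker, hF]
      exact (lineAt_iff_of_unr H hq hP hφ hw.1 hw.2.1 (hu P hP)).mp
        (hw.2.2.2 q trivial (Or.inr (Finset.mem_insert_self _ _)) P hP)
    · rintro _ ⟨w, hw, rfl⟩
      rw [SetLike.mem_coe, LinearMap.mem_ker, hF] at hw
      obtain ⟨h1, h2, h3, h4⟩ := w.2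
      have hu := h3 q hq.1 trivial hq.2.1 hqQ
      have hline : LineAt ρ P w.1 := (lineAt_iff_of_unr H hq hP hφ h1 h2 (hu P hP)).mpr hw
      refine ⟨h1, h2, fun ℓ hℓ _ hS hQ P' hP' => h3 ℓ hℓ trivial hS
        (fun h => hQ (Finset.mem_insert_of_mem h)) P' hP', fun ℓ _ hℓ P' hP' => ?_⟩
      rcases hℓ with hℓ | hℓ
      · exact h4 ℓ trivial (Or.inl hℓ) P' hP'
      · rcases Finset.mem_insert.mp hℓ with rfl | hℓ
        · exact lineAt_of_place h1 hq.1 hP hP' hline
        · exact h4 ℓ trivial (Or.inr hℓ) P' hP'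
  have hsurj : LinearMap.range F = ⊤ := by
    apply Submodule.eq_top_of_finrank_eq
    have h1 := finrank_quotient_range H.finrank_eq hT1 hT2
    have h2 := Submodule.finrank_le (LinearMap.range F)
    have h3 : finrank (ZMod 2) (LinearMap.range F) ≠ 0 := by
      intro h0
      rw [Submodule.finrank_eq_zero] at h0
      apply hvφ
      rw [← hF ⟨v, hv⟩]
      have h4 : F ⟨v, hv⟩ ∈ LinearMap.range F := ⟨_, rfl⟩
      rw [h0] at h4
      exact (Submodule.mem_bot _).mp h4
    omega
  have h1 := LinearMap.finrank_range_add_finrank_ker F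
  rw [hsurj, finrank_top, finrank_quotient_range H.finrank_eq hT1 hT2] at h1
  have h2 : finrank (ZMod 2) (Selmer ρ S (insert q Q)) = finrank (ZMod 2) (LinearMap.ker F) := by
    rw [hker]
    exact (LinearEquiv.finrank_eq (Submodule.equivMapOfInjective (Selmer ρ S Q).subtype
      (Submodule.subtype_injective _) (LinearMap.ker F))).symm
  omega

end Fermat.Agent.P2.Sel
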