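import Fermat.Agent.P2.Sel.GenLevel

/-!
# P2, block 2a: the killing sets `Qₙ`
-/

set_option autoImplicit false
set_option linter.unusedSectionVars false

noncomputable section

open Pointwise Module

namespace Fermat.Agent.P2.Sel

local notation "Ω" => AlgebraicClosure ℚ

variable {V : Type} [AddCommGroup V] [Module (ZMod 2) V]
  {ρ : Representation (ZMod 2) GQ V} {S : Finset ℕ}

/-- `V` has no nonzero invariants. -/
theorem eq_zero_of_invariant (H : Hyp ρ S) {x : V} (hx : ∀ g, ρ g x = x) : x = 0 := by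
  have := finiteDimensional_V H
  by_contra hx0
  have h1 : Submodule.span (ZMod 2) {x} = ⊤ := by
    refine eq_top_of_stable H _ ?_ (Submodule.mem_span_singleton_self x) hx0
    intro g y hy
    obtain ⟨c, rfl⟩ := Submodule.mem_span_singleton.mp hy
    rw [map_smul, hx]
    exact Submodule.smul_mem _ _ (Submodule.mem_span_singleton_self x)
  have h2 := finrank_span_singleton (K := ZMod 2) hx0
  rw [h1, finrank_top, H.finrank_eq] at h2
  omega

theorem cob_injective (H : Hyp ρ S) : Function.Injective (cob ρ) := by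
  rw [← LinearMap.ker_eq_bot, LinearMap.ker_eq_bot']
  intro x hx
  refine eq_zero_of_invariant H fun g => ?_
  have h1 := congrFun hx g
  rw [cob_apply] at h1
  exact sub_eq_zero.mp h1

theorem finrank_range_cob (H : Hyp ρ S) : finrank (ZMod 2) (LinearMap.range (cob ρ)) = 2 := by
  rw [LinearMap.finrank_range_of_inj (cob_injective H), H.finrank_eq]

theorem range_cob_le (H : Hyp ρ S) (Q : Finset ℕ) : LinearMap.range (cob ρ) ≤ Selmer ρ S Q := by
  rintro _ ⟨x, rfl⟩
  exact cob_mem H Q _ x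

theorem two_le_finrank_Selmer (H : Hyp ρ S) (Q : Finset ℕ) :
    2 ≤ finrank (ZMod 2) (Selmer ρ S Q) := by
  have := finiteDimensional_Selmer H Q
  exact (finrank_range_cob H).symm.le.trans (Submodule.finrank_mono (range_cob_le H Q))

/-- The dimension of the (cohomological) Selmer group. -/
def selRank (ρ : Representation (ZMod 2) GQ V) (S : Finset ℕ) : ℕ :=
  finrank (ZMod 2) (Selmer ρ S ∅) - 2

theorem exists_killing_aux (H : Hyp ρ S) (hI : Iso ρ S) {X : Type} [Group X] {ρn : GQ →* X}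
    (hn : LevelHyp ρ S ρn) (hgen : GenHyp ρ S ρn) (T : Finset ℕ) (k : ℕ) :
    ∀ Q₀ : Finset ℕ, (∀ q ∈ Q₀, ConjFrob S ρn q ∧ q ∉ T) →
      finrank (ZMod 2) (Selmer ρ S Q₀) = 2 + k →
      ∃ Q : Finset ℕ, Q.card = Q₀.card + k ∧ (∀ q ∈ Q, ConjFrob S ρn q ∧ q ∉ T) ∧
        Selmer ρ S Q = LinearMap.range (cob ρ) := by
  induction k with
  | zero =>
    intro Q₀ hQ₀ hfin
    refine ⟨Q₀, rfl, hQ₀, ?_⟩
    have := finiteDimensional_Selmer H Q₀
    symm
    apply Submodule.eq_of_le_of_finrank_le (range_cob_le H Q₀)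
    rw [finrank_range_cob H, hfin]
  | succ k ih =>
    intro Q₀ hQ₀ hfin
    have hfd := finiteDimensional_Selmer H Q₀
    obtain ⟨v, hv, hvn⟩ : ∃ v ∈ Selmer ρ S Q₀, v ∉ LinearMap.range (cob ρ) := by
      by_contra hcon
      push Not at hcon
      have h1 : Selmer ρ S Q₀ = LinearMap.range (cob ρ) := le_antisymm hcon (range_cob_le H Q₀)
      have h2 := finrank_range_cob H
      rw [← h1, hfin] at h2
      omega
    obtain ⟨h₀, hh₀, hvh⟩ := exists_ne_zero_of_notMem H hn.ker_le hgen hv hvn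
    obtain ⟨q, hq, hqT, P, hP, φ, hφ, hvφ⟩ :=
      exists_prime H hn hv.1 hv.2.1 hh₀ hvh (T ∪ Q₀)
    rw [Finset.mem_union, not_or] at hqT
    have hqt := hq.transFrob H hn
    have hiso := hI Q₀ q (fun ℓ hℓ => (hQ₀ ℓ hℓ).1.transFrob H hn) hqt hqT.2 v hv
      ⟨P, hP, φ, hφ, fun x hx => hvφ ⟨x, hx.symm⟩⟩
    have hdrop := finrank_insert H hqt hqT.2 hiso hv hP hφ hvφ
    obtain ⟨Q, hc, hQ, hQe⟩ := ih (insert q Q₀) (by
      intro ℓ hℓ
      rcases Finset.mem_insert.mp hℓ with rfl | hℓ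
      · exact ⟨hq, hqT.1⟩
      · exact hQ₀ ℓ hℓ) (by omega)
    refine ⟨Q, ?_, hQ, hQe⟩
    rw [hc, Finset.card_insert_of_notMem hqT.2]
    omega

/-- **Main theorem of block 2a.** There are killing sets `Q` of constant cardinality
`selRank ρ S`, away from any finite set `T`, all of whose primes have Frobenius elements acting at
the level `ρₙ` as conjugates of complex conjugation. -/
theorem exists_killing (H : Hyp ρ S) (hI : Iso ρ S) {X : Type} [Group X] {ρn : GQ →* X}
    (hn : LevelHyp ρ S ρn) (hgen : GenHyp ρ S ρn) (T : Finset ℕ) :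
    ∃ Q : Finset ℕ, Q.card = selRank ρ S ∧ (∀ q ∈ Q, ConjFrob S ρn q ∧ q ∉ T) ∧
      Selmer ρ S Q = LinearMap.range (cob ρ) := by
  obtain ⟨Q, h1, h2, h3⟩ := exists_killing_aux H hI hn hgen T (selRank ρ S) ∅ (by simp) (by
    have := two_le_finrank_Selmer H (∅ : Finset ℕ)
    rw [selRank]
    omega)
  exact ⟨Q, by rw [h1, Finset.card_empty, zero_add], h2, h3⟩

end Fermat.Agent.P2.Sel
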