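import Fermat.Agent.P2.Sel.Drop
import Fermat.Agent.FrobeniusDensity

/-!
# P2, block 2a: existence of killing primes
-/

set_option autoImplicit false
set_option linter.unusedSectionVars false

noncomputable section

open Pointwise Module

namespace Fermat.Agent.P2.Sel

local notation "Ω" => AlgebraicClosure ℚ

variable {V : Type} [AddCommGroup V] [Module (ZMod 2) V]
  {ρ : Representation (ZMod 2) GQ V} {S : Finset ℕ}

theorem exists_linearEquiv_apply_eq [FiniteDimensional (ZMod 2) V] {x y : V} (hx : x ≠ 0)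
    (hy : y ≠ 0) : ∃ A : V ≃ₗ[ZMod 2] V, A x = y := by
  obtain ⟨g, hg⟩ := Submodule.exists_linearEquiv_restrict_eq
    ((LinearEquiv.toSpanNonzeroSingleton (ZMod 2) V x hx).symm ≪≫ₗ
      LinearEquiv.toSpanNonzeroSingleton (ZMod 2) V y hy)
  refine ⟨g, ?_⟩
  have h1 := hg (LinearEquiv.toSpanNonzeroSingleton (ZMod 2) V x hx 1)
  rw [LinearEquiv.trans_apply, LinearEquiv.symm_apply_apply] at h1
  rw [LinearEquiv.toSpanNonzeroSingleton_apply, LinearEquiv.toSpanNonzeroSingleton_apply] at h1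
  simpa using h1.symm

/-- Irreducibility: a nonzero stable subspace is everything. -/
theorem eq_top_of_stable (H : Hyp ρ S) (W : Submodule (ZMod 2) V)
    (hW : ∀ g : GQ, ∀ x ∈ W, ρ g x ∈ W) {x : V} (hx : x ∈ W) (hx0 : x ≠ 0) : W = ⊤ := by
  have := finiteDimensional_V H
  rw [eq_top_iff]
  intro y _
  by_cases hy0 : y = 0
  · rw [hy0]; exact W.zero_mem
  obtain ⟨A, hA⟩ := exists_linearEquiv_apply_eq hx0 hy0
  obtain ⟨g, hg⟩ := H.surj A
  rw [← hA]
  have h1 := hW g x hx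
  rw [hg] at h1
  exact h1

/-- The values of a cocycle on the kernel of `ρₙ`. -/
theorem exists_value (H : Hyp ρ S) {X : Type} [Group X] (ρn : GQ →* X)
    (hker : ∀ g, ρn g = 1 → ρ g = 1) {f : GQ → V} (hf : IsCoc ρ f) {h₀ : GQ} (hh₀ : ρn h₀ = 1)
    (hfh : f h₀ ≠ 0) (y : V) : ∃ h, ρn h = 1 ∧ f h = y := by
  let W : Submodule (ZMod 2) V :=
    { carrier := {y | ∃ h, ρn h = 1 ∧ f h = y}
      zero_mem' := ⟨1, map_one _, hf.one⟩
      add_mem' := by
        rintro _ _ ⟨h, hh, rfl⟩ ⟨h', hh', rfl⟩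
        exact ⟨h * h', by rw [map_mul, hh, hh', one_mul], hf.mul_of_eq_one (hker h hh)⟩
      smul_mem' := by
        rintro c _ ⟨h, hh, rfl⟩
        have hc : c = 0 ∨ c = 1 := by
          revert c; decide
        rcases hc with rfl | rfl
        · exact ⟨1, map_one _, by rw [hf.one, zero_smul]⟩
        · exact ⟨h, hh, by rw [one_smul]⟩ }
  have hW : W = ⊤ := by
    refine eq_top_of_stable H W ?_ (x := f h₀) ⟨h₀, hh₀, rfl⟩ hfh
    rintro g _ ⟨h, hh, rfl⟩
    exact ⟨g * h * g⁻¹, by rw [map_mul, map_mul, hh, mul_one, ← map_mul, mul_inv_cancel, map_one],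
      hf.conj_of_eq_one (hker h hh)⟩
  have : y ∈ W := by rw [hW]; trivial
  exact this

theorem pow_odd_sub_mem {f : GQ → V} (hf : IsCoc ρ f) {g : GQ} (hg : ρ g * ρ g = 1) (m : ℕ) :
    f (g ^ (2 * m + 1)) - f g ∈ LinearMap.range (ρ g - 1) := by
  induction m with
  | zero => rw [mul_zero, zero_add, pow_one, sub_self]; exact Submodule.zero_mem _
  | succ m ih =>
    have e : g ^ (2 * (m + 1) + 1) = g * g * g ^ (2 * m + 1) := by
      rw [← pow_two, ← pow_add]; congr 1; ring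
    have h1 : f (g * g) = (ρ g - 1) (f g) := by
      rw [hf, LinearMap.sub_apply, Module.End.one_apply, sub_eq_add, add_comm]
    have h2 : f (g ^ (2 * (m + 1) + 1)) - f g =
        (ρ g - 1) (f g) + (f (g ^ (2 * m + 1)) - f g) := by
      rw [e, hf, h1, map_mul, hg, Module.End.one_apply]
      abel
    rw [h2]
    exact Submodule.add_mem _ ⟨_, rfl⟩ ih

/-- Data of a finite level `ρₙ`. -/
structure LevelHyp (ρ : Representation (ZMod 2) GQ V) (S : Finset ℕ) {X : Type} [Group X]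
    (ρn : GQ →* X) : Prop where
  ker_le : ∀ g, ρn g = 1 → ρ g = 1
  smooth : ∃ L : IntermediateField ℚ Ω, FiniteDimensional ℚ L ∧
    ∀ h : GQ, (∀ x ∈ L, h x = x) → ρn h = 1
  unram : ∀ ℓ : ℕ, ℓ.Prime → ℓ ∉ S → ∀ P : ValuationSubring Ω, P.LiesOverPrime ℓ →
    ∀ g ∈ P.inertiaSubgroupIn ℚ, ρn g = 1

/-- `ℓ` is a good prime whose Frobenius elements act on the level as complex conjugation. -/
def ConjFrob (S : Finset ℕ) {X : Type} [Group X] (ρn : GQ →* X) (ℓ : ℕ) : Prop :=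
  ℓ.Prime ∧ ℓ ∉ S ∧ ∀ P : ValuationSubring Ω, P.LiesOverPrime ℓ →
    ∀ φ : GQ, P.IsFrobeniusAt φ ℓ → ∃ g : GQ, ρn φ = ρn (g * complexConjugation * g⁻¹)

theorem rho_conj_sq : ρ complexConjugation * ρ complexConjugation = 1 := by
  rw [← map_mul, complexConjugation_mul_self, map_one]

theorem ConjFrob.transFrob (H : Hyp ρ S) {X : Type} [Group X] {ρn : GQ →* X}
    (hn : LevelHyp ρ S ρn) {ℓ : ℕ} (h : ConjFrob S ρn ℓ) : TransFrob ρ S ℓ := by
  refine ⟨h.1, h.2.1, fun P hP φ hφ => ?_⟩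
  obtain ⟨g, hg⟩ := h.2.2 P hP φ hφ
  have h1 : ρ φ = ρ g * ρ complexConjugation * ρ g⁻¹ := by
    have h2 : ρn ((g * complexConjugation * g⁻¹)⁻¹ * φ) = 1 := by
      rw [map_mul, map_inv, hg, inv_mul_cancel]
    have h3 := hn.ker_le _ h2
    have h4 : φ = (g * complexConjugation * g⁻¹) * ((g * complexConjugation * g⁻¹)⁻¹ * φ) := by
      group
    rw [h4, map_mul, h3, mul_one, map_mul, map_mul]
  have hgi : ρ g⁻¹ * ρ g = 1 := by rw [← map_mul, inv_mul_cancel, map_one]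
  have hgi' : ρ g * ρ g⁻¹ = 1 := by rw [← map_mul, mul_inv_cancel, map_one]
  constructor
  · intro h2
    apply H.conj
    have h3 : ρ complexConjugation = ρ g⁻¹ * (ρ g * ρ complexConjugation * ρ g⁻¹) * ρ g := by
      calc ρ complexConjugation = (ρ g⁻¹ * ρ g) * ρ complexConjugation * (ρ g⁻¹ * ρ g) := by
            rw [hgi, one_mul, mul_one]
        _ = _ := by simp only [mul_assoc]
    rw [h3, ← h1, h2, mul_one, hgi]
  · rw [h1]
    calc ρ g * ρ complexConjugation * ρ g⁻¹ * (ρ g * ρ complexConjugation * ρ g⁻¹)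
        = ρ g * (ρ complexConjugation * (ρ g⁻¹ * ρ g) * ρ complexConjugation) * ρ g⁻¹ := by
          simp only [mul_assoc]
      _ = 1 := by rw [hgi, mul_one, rho_conj_sq, mul_one, hgi']

/-- **Existence of killing primes.** -/
theorem exists_prime (H : Hyp ρ S) {X : Type} [Group X] {ρn : GQ →* X} (hn : LevelHyp ρ S ρn)
    {v : GQ → V} (hv : IsCoc ρ v) (hl : LevelConst v) {h₀ : GQ} (hh₀ : ρn h₀ = 1)
    (hvh : v h₀ ≠ 0) (T : Finset ℕ) :
    ∃ q : ℕ, ConjFrob S ρn q ∧ q ∉ T ∧ ∃ P : ValuationSubring Ω, P.LiesOverPrime q ∧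
      ∃ φ : GQ, P.IsFrobeniusAt φ q ∧ v φ ∉ LinearMap.range (ρ φ - 1) := by
  have := finiteDimensional_V H
  set c : GQ := complexConjugation with hc
  have hcc : ρ c * ρ c = 1 := rho_conj_sq
  have hr : LinearMap.range (ρ c - 1) ≠ ⊤ := by
    intro h
    have h1 := finrank_range H.finrank_eq H.conj hcc
    rw [h, finrank_top, H.finrank_eq] at h1
    omega
  obtain ⟨y, hy⟩ : ∃ y, y ∉ LinearMap.range (ρ c - 1) := by
    by_contra hcon
    push Not at hcon
    exact hr (eq_top_iff.mpr fun y _ => hcon y)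
  obtain ⟨h, hh, hvh'⟩ := exists_value H ρn hn.ker_le hv hh₀ hvh (ρ c (y - v c))
  -- `g = c h`
  have hg1 : ρn (c * h) = ρn c := by rw [map_mul, hh, mul_one]
  have hgρ : ρ (c * h) = ρ c := by rw [map_mul, hn.ker_le h hh, mul_one]
  have hgv : v (c * h) = y := by
    rw [hv, hvh', ← Module.End.mul_apply, hcc, Module.End.one_apply, add_sub_cancel]
  obtain ⟨L₁, hL₁, h1⟩ := hl
  obtain ⟨L₂, hL₂, h2⟩ := hn.smooth
  obtain ⟨q, hq, hqT, P, φ, hP, hφ, ⟨k', hk'⟩, k, hk⟩ :=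
    FrobDensity.frobenius_density (L₁ ⊔ L₂) (S ∪ T) (c * h)
  rw [Finset.mem_union, not_or] at hqT
  -- values
  have key : ∀ a b : GQ, (∀ x ∈ L₁ ⊔ L₂, a x = b x) → ρn a = ρn b ∧ v a = v b := by
    intro a b hab
    have e : ∀ x ∈ L₁ ⊔ L₂, (b⁻¹ * a) x = x := by
      intro x hx
      show b⁻¹ (a x) = x
      rw [hab x hx]
      show (b⁻¹ * b) x = x
      rw [inv_mul_cancel]
      rfl
    constructor
    · have h3 := h2 (b⁻¹ * a) fun x hx => e x ((le_sup_right : L₂ ≤ L₁ ⊔ L₂) hx)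
      rw [map_mul, map_inv, inv_mul_eq_one] at h3
      exact h3.symm
    · have h3 := h1 b (b⁻¹ * a) fun x hx => e x ((le_sup_left : L₁ ≤ L₁ ⊔ L₂) hx)
      rwa [mul_inv_cancel_left] at h3
  obtain ⟨e1, e2⟩ := key _ _ hk
  obtain ⟨e3, -⟩ := key _ _ hk'
  have hc2 : ρn c ^ 2 = 1 := by rw [← map_pow, hc, complexConjugation_sq, map_one]
  have hc1 : ρn c ≠ 1 := fun h3 => H.conj (hn.ker_le c h3)
  -- `k` is odd
  rcases Nat.even_or_odd' k with ⟨m, hm | hm⟩
  · exfalso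
    rw [map_pow, hg1, hm, pow_mul, hc2, one_pow] at e1
    rw [map_pow, e1, one_pow, hg1] at e3
    exact hc1 e3
  have hρφ : ρn φ = ρn c := by
    rw [e1, map_pow, hg1, hm, pow_succ, pow_mul, hc2, one_pow, one_mul]
  have hρφ' : ρ φ = ρ c := by
    have h3 : ρn (c⁻¹ * φ) = 1 := by rw [map_mul, map_inv, hρφ, inv_mul_cancel]
    have h4 := hn.ker_le _ h3
    have h5 : φ = c * (c⁻¹ * φ) := by group
    rw [h5, map_mul, h4, mul_one]
  refine ⟨q, ⟨hq, hqT.1, fun P' hP' φ' hφ' => ?_⟩, hqT.2, P, hP, φ, hφ, ?_⟩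
  · obtain ⟨g, i, hi, hφg⟩ := TWP.Place.exists_conj_mul_inertia hq hP hP' hφ hφ'
    refine ⟨g, ?_⟩
    rw [hφg, map_mul, hn.unram q hq hqT.1 P' hP' i hi, mul_one, map_mul, map_mul, hρφ, map_mul,
      map_mul]
  · have hgg : ρ (c * h) * ρ (c * h) = 1 := by rw [hgρ, hcc]
    have h3 := pow_odd_sub_mem hv hgg m
    rw [← hm, ← e2, hgv, hgρ] at h3
    rw [hρφ']
    intro h4
    apply hy
    have h5 := Submodule.sub_mem _ h4 h3
    rwa [sub_sub_cancel] at h5

end Fermat.Agent.P2.Sel
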