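import Fermat.Agent.P2.Sel.Defs
import Fermat.Agent.DefCond.TangentFinite

/-!
# P2, block 2a: cocycle calculus and finiteness of the Selmer spaces
-/

set_option autoImplicit false
set_option linter.unusedSectionVars false

noncomputable section

open Pointwise

namespace Fermat.Agent.P2.Sel

local notation "Ω" => AlgebraicClosure ℚ

variable {V : Type} [AddCommGroup V] [Module (ZMod 2) V] {ρ : Representation (ZMod 2) GQ V}

theorem add_self (x : V) : x + x = 0 := by
  have h : (2 : ZMod 2) • x = 0 := by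
    rw [show (2 : ZMod 2) = 0 from rfl, zero_smul]
  rw [← two_smul (ZMod 2) x]
  exact h

theorem neg_eq (x : V) : -x = x := neg_eq_of_add_eq_zero_left (add_self x)

theorem sub_eq_add (x y : V) : x - y = x + y := by rw [sub_eq_add_neg, neg_eq]

namespace IsCoc

variable {f : GQ → V} (hf : IsCoc ρ f)

include hf

theorem one : f 1 = 0 := by
  have h := hf 1 1
  rw [mul_one, map_one] at h
  simpa using h

theorem inv (g : GQ) : f g⁻¹ = - ρ g⁻¹ (f g) := by
  have h := hf g⁻¹ g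
  rw [inv_mul_cancel, hf.one] at h
  exact eq_neg_of_add_eq_zero_left h.symm

theorem conj (g h : GQ) : f (g * h * g⁻¹) = ρ g (f h) + (f g - ρ (g * h * g⁻¹) (f g)) := by
  rw [hf, hf, hf.inv, map_neg, ← Module.End.mul_apply (ρ (g * h)), ← map_mul]
  abel

theorem mul_of_eq_one {g h : GQ} (hg : ρ g = 1) : f (g * h) = f g + f h := by
  rw [hf, hg, Module.End.one_apply]

theorem conj_of_eq_one {g h : GQ} (hh : ρ h = 1) : f (g * h * g⁻¹) = ρ g (f h) := by
  rw [hf.conj, map_mul, map_mul, hh, mul_one, ← map_mul, mul_inv_cancel, map_one,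
    Module.End.one_apply, sub_self, add_zero]

end IsCoc

theorem isCoc_cob (x : V) : IsCoc ρ (cob ρ x) := by
  intro g h
  rw [cob_apply, cob_apply, cob_apply, map_mul, Module.End.mul_apply, map_sub]
  abel

variable {S : Finset ℕ}

theorem levelConst_cob (H : Hyp ρ S) (x : V) : LevelConst (cob ρ x) := by
  obtain ⟨L, hL, h⟩ := H.smooth
  exact ⟨L, hL, fun g s hs => by rw [cob_apply, cob_apply, map_mul, h s hs, mul_one]⟩

theorem cob_mem (H : Hyp ρ S) (Q : Finset ℕ) (A : Set ℕ) (x : V) : cob ρ x ∈ SelOn ρ S Q A := by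
  refine ⟨isCoc_cob x, levelConst_cob H x, fun ℓ hℓ _ hS _ P hP g hg => ?_,
    fun ℓ _ _ P _ => ⟨x, fun g _ h _ => ?_⟩⟩
  · rw [cob_apply, H.unram ℓ hℓ hS P hP g hg, Module.End.one_apply, sub_self]
  · rw [cob_apply, sub_self, map_zero]

/-- The unramified condition only depends on the prime. -/
theorem unrAt_smul {f : GQ → V} (hf : IsCoc ρ f) {P : ValuationSubring Ω}
    (hρ : ∀ g ∈ P.inertiaSubgroupIn ℚ, ρ g = 1) (h : UnrAt P f) (g : GQ) :
    UnrAt (g • P) f := by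
  intro i hi
  have h1 := TWP.Place.mem_inertia_conj g⁻¹ hi
  rw [inv_smul_smul, inv_inv] at h1
  have e : i = g * (g⁻¹ * i * g) * g⁻¹ := by group
  rw [e, hf.conj_of_eq_one (hρ _ h1), h _ h1, map_zero]

theorem unrAt_of_place (H : Hyp ρ S) {f : GQ → V} (hf : IsCoc ρ f) {ℓ : ℕ} (hℓ : ℓ.Prime)
    (hS : ℓ ∉ S) {P P' : ValuationSubring Ω} (hP : P.LiesOverPrime ℓ) (hP' : P'.LiesOverPrime ℓ)
    (h : UnrAt P f) : UnrAt P' f := by
  obtain ⟨g, rfl⟩ := FrobExists.exists_smul_eq P P' hℓ hP hP'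
  exact unrAt_smul hf (H.unram ℓ hℓ hS P hP) h g

/-- The line condition only depends on the prime. -/
theorem lineAt_smul {f : GQ → V} (hf : IsCoc ρ f) {P : ValuationSubring Ω} (h : LineAt ρ P f)
    (g : GQ) : LineAt ρ (g • P) f := by
  obtain ⟨x, hx⟩ := h
  have hdec : ∀ {s : GQ}, s ∈ (g • P).decompositionSubgroup ℚ →
      g⁻¹ * s * g ∈ P.decompositionSubgroup ℚ := by
    intro s hs
    have h1 := TWP.Place.decomposition_conj g⁻¹ hs
    rwa [inv_smul_smul, inv_inv] at h1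
  -- `f (g s g⁻¹) = ρ g (f s) + f g - ρ (g s g⁻¹) (f g)`; use `ρ g x - f g`
  refine ⟨ρ g x - f g, fun s hs t ht => ?_⟩
  have hs' := hdec hs
  have ht' := hdec ht
  have es : s = g * (g⁻¹ * s * g) * g⁻¹ := by group
  have et : t = g * (g⁻¹ * t * g) * g⁻¹ := by group
  have key : f s - (ρ s (ρ g x - f g) - (ρ g x - f g)) =
      ρ g (f (g⁻¹ * s * g) - (ρ (g⁻¹ * s * g) x - x)) := by
    conv_lhs => rw [es, hf.conj]
    rw [← es, map_sub, map_sub, map_sub]
    have e1 : ρ s (ρ g x) = ρ g (ρ (g⁻¹ * s * g) x) := by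
      rw [← Module.End.mul_apply, ← Module.End.mul_apply, ← map_mul, ← map_mul]
      congr 2
      group
    rw [e1]
    abel
  rw [key]
  conv_lhs => rw [et, map_mul, map_mul, Module.End.mul_apply, Module.End.mul_apply,
    ← Module.End.mul_apply (ρ g⁻¹), ← map_mul, inv_mul_cancel, map_one, Module.End.one_apply,
    hx _ hs' _ ht']

theorem lineAt_of_place {f : GQ → V} (hf : IsCoc ρ f) {ℓ : ℕ} (hℓ : ℓ.Prime)
    {P P' : ValuationSubring Ω} (hP : P.LiesOverPrime ℓ) (hP' : P'.LiesOverPrime ℓ)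
    (h : LineAt ρ P f) : LineAt ρ P' f := by
  obtain ⟨g, rfl⟩ := FrobExists.exists_smul_eq P P' hℓ hP hP'
  exact lineAt_smul hf h g

/-! ### Finiteness -/

open Fermat.Agent.MW.QuadFinite in
/-- All Selmer cocycles are trivial on a common open normal subgroup. -/
theorem exists_common_level (H : Hyp ρ S) (Q : Finset ℕ) (A : Set ℕ) (hA : Aᶜ.Finite) :
    ∃ L : IntermediateField ℚ Ω, FiniteDimensional ℚ L ∧ ∀ f ∈ SelOn ρ S Q A, ∀ h : GQ,
      (∀ x ∈ L, h x = x) → ρ h = 1 ∧ f h = 0 := by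
  obtain ⟨L₀, hL₀, hρ⟩ := H.smooth
  have hU : IsOpen (L₀.fixingSubgroup : Set GQ) := L₀.fixingSubgroup_isOpen
  have hS : (((S ∪ Q : Finset ℕ) : Set ℕ) ∪ Aᶜ).Finite := (Finset.finite_toSet _).union hA
  obtain ⟨W, hW, hWU, hker⟩ := DefCond.exists_common_kernel Nat.prime_two L₀.fixingSubgroup hU
    _ hS
  obtain ⟨L, hL, hLW⟩ := (krullTopology_mem_nhds_one_iff ℚ Ω _).mp (hW.mem_nhds W.one_mem)
  refine ⟨L, hL, fun f hf h hh => ?_⟩
  obtain ⟨hf1, hf2, hf3, hf4⟩ := hf
  have hhW : h ∈ W := hLW ((IntermediateField.mem_fixingSubgroup_iff _ _).mpr hh)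
  have hρU : ∀ g ∈ L₀.fixingSubgroup, ρ g = 1 := fun g hg =>
    hρ g ((IntermediateField.mem_fixingSubgroup_iff _ _).mp hg)
  refine ⟨hρU h (hWU hhW), ?_⟩
  let φ : L₀.fixingSubgroup →* Multiplicative V :=
    { toFun := fun g => Multiplicative.ofAdd (f g)
      map_one' := by rw [Subgroup.coe_one, hf1.one]; rfl
      map_mul' := fun g g' => by
        rw [Subgroup.coe_mul, hf1.mul_of_eq_one (hρU g g.2)]; rfl }
  have h1 := hker V φ (fun σ => by
      show Multiplicative.ofAdd (f σ) ^ 2 = 1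
      rw [pow_two, ← ofAdd_add, add_self, ofAdd_zero]) ?_ ?_ ⟨h, hWU hhW⟩ hhW
  · exact h1
  · obtain ⟨L', hL', hf'⟩ := hf2
    have hle : L₀.fixingSubgroup ⊓ L'.fixingSubgroup ≤ φ.ker.map L₀.fixingSubgroup.subtype := by
      rintro g ⟨hg, hg'⟩
      refine ⟨⟨g, hg⟩, ?_, rfl⟩
      show Multiplicative.ofAdd (f g) = 1
      have h2 := hf' 1 g ((IntermediateField.mem_fixingSubgroup_iff _ _).mp hg')
      rw [one_mul, hf1.one] at h2
      rw [h2, ofAdd_zero]
    exact Subgroup.isOpen_mono hle (L₀.fixingSubgroup_isOpen.inter L'.fixingSubgroup_isOpen)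
  · intro ℓ hℓ hℓS P hP σ hσ
    simp only [Finset.coe_union, Set.mem_union, not_or, Finset.mem_coe, Set.mem_compl_iff,
      not_not] at hℓS
    obtain ⟨⟨h2, h3⟩, h4⟩ := hℓS
    show Multiplicative.ofAdd (f σ) = 1
    rw [hf3 ℓ hℓ h4 h2 h3 P hP σ hσ, ofAdd_zero]

theorem finite_SelOn (H : Hyp ρ S) [Finite V] (Q : Finset ℕ) (A : Set ℕ) (hA : Aᶜ.Finite) :
    Finite (SelOn ρ S Q A) := by
  obtain ⟨L, hL, h⟩ := exists_common_level H Q A hA
  have hW : IsOpen (L.fixingSubgroup : Set GQ) := L.fixingSubgroup_isOpen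
  have hGW : Finite (GQ ⧸ L.fixingSubgroup) := Subgroup.quotient_finite_of_isOpen _ hW
  refine Finite.of_injective (fun f : SelOn ρ S Q A => fun q : GQ ⧸ L.fixingSubgroup => f.1 q.out) ?_
  intro f f' hff'
  refine Subtype.ext (funext fun g => ?_)
  obtain ⟨n, hn⟩ := QuotientGroup.mk_out_eq_mul L.fixingSubgroup g
  have h1 := congrFun hff' (QuotientGroup.mk g)
  simp only [hn] at h1
  have hn0 : ∀ x ∈ L, (n : GQ) x = x := (IntermediateField.mem_fixingSubgroup_iff _ _).mp n.2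
  rw [f.2.1, f'.2.1, (h f.1 f.2 _ hn0).2, (h f'.1 f'.2 _ hn0).2, map_zero, add_zero, add_zero] at h1
  exact h1

theorem finite_V (H : Hyp ρ S) : Finite V := by
  have : Module.Finite (ZMod 2) V := Module.finite_of_finrank_pos (by rw [H.finrank_eq]; norm_num)
  exact Module.finite_of_finite (ZMod 2)

theorem finiteDimensional_V (H : Hyp ρ S) : FiniteDimensional (ZMod 2) V :=
  Module.finite_of_finrank_pos (by rw [H.finrank_eq]; norm_num)

theorem finiteDimensional_SelOn (H : Hyp ρ S) (Q : Finset ℕ) (A : Set ℕ) (hA : Aᶜ.Finite) :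
    FiniteDimensional (ZMod 2) (SelOn ρ S Q A) := by
  have := finite_V H
  have := finite_SelOn H Q A hA
  exact Module.Finite.of_finite

theorem finiteDimensional_Selmer (H : Hyp ρ S) (Q : Finset ℕ) :
    FiniteDimensional (ZMod 2) (Selmer ρ S Q) :=
  finiteDimensional_SelOn H Q _ (by simp)

end Fermat.Agent.P2.Sel
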