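import Fermat.Agent.P2.Sel.Out
import Fermat.Agent.P2.Iso.Main

/-!
# P2, block 2: the unconditional statement
-/

set_option autoImplicit false

noncomputable section

namespace Fermat.Agent.P2.Sel

/-- **Block 2**, unconditionally. -/
theorem block2 (S : Finset ℕ) (a : ℕ → ℤ) (D : GalData S a) (hS : ∀ q ∈ S, q.Prime)
    (h2 : 2 ∈ S) (hodd : ∃ q ∈ S, q ≠ 2) :
    ∃ r : ℕ, ∀ n B : ℕ, ∃ Q : Finset ℕ, Q.card = r ∧ (∀ q ∈ Q, AuxPrime D.ρ S n q) ∧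
      (∀ q ∈ Q, B < q) ∧
      ∀ ξ ∈ Selmer (resRep D.ρ) S Q, ∃ x : Fin 2 → ZMod 2, ξ = cob (resRep D.ρ) x :=
  block2_of_iso' S a D hS h2 hodd (Iso.iso (hyp_of_galData D hS h2))

end Fermat.Agent.P2.Sel
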