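import Mathlib

/-!
# P2, block 2a: two transvections with independent directions and unit parameters generate `SL₂`
-/

set_option autoImplicit false
set_option linter.unusedSimpArgs false

noncomputable section

open Matrix

namespace Fermat.Agent.P2.Sel

variable {R : Type*} [CommRing R]

/-- upper elementary matrix -/
def up (t : R) : GL (Fin 2) R :=
  ⟨!![1, t; 0, 1], !![1, -t; 0, 1], by
    ext i j; fin_cases i <;> fin_cases j <;> simp [Matrix.mul_apply, Fin.sum_univ_two], by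
    ext i j; fin_cases i <;> fin_cases j <;> simp [Matrix.mul_apply, Fin.sum_univ_two]⟩

/-- lower elementary matrix -/
def lo (t : R) : GL (Fin 2) R :=
  ⟨!![1, 0; t, 1], !![1, 0; -t, 1], by
    ext i j; fin_cases i <;> fin_cases j <;> simp [Matrix.mul_apply, Fin.sum_univ_two], by
    ext i j; fin_cases i <;> fin_cases j <;> simp [Matrix.mul_apply, Fin.sum_univ_two]⟩

theorem up_val (t : R) : (up t).1 = !![1, t; 0, 1] := rfl

theorem lo_val (t : R) : (lo t).1 = !![1, 0; t, 1] := rfl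

theorem up_add (s t : R) : up (s + t) = up s * up t := by
  apply Units.ext
  rw [Units.val_mul, up_val, up_val, up_val]
  ext i j; fin_cases i <;> fin_cases j <;> simp [Matrix.mul_apply, Fin.sum_univ_two, add_comm]

theorem lo_add (s t : R) : lo (s + t) = lo s * lo t := by
  apply Units.ext
  rw [Units.val_mul, lo_val, lo_val, lo_val]
  ext i j; fin_cases i <;> fin_cases j <;> simp [Matrix.mul_apply, Fin.sum_univ_two]

/-- `up` as a homomorphism -/
def upHom (R : Type*) [CommRing R] : Multiplicative R →* GL (Fin 2) R :=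
  MonoidHom.mk' (fun t => up t.toAdd) fun _ _ => up_add _ _

/-- `lo` as a homomorphism -/
def loHom (R : Type*) [CommRing R] : Multiplicative R →* GL (Fin 2) R :=
  MonoidHom.mk' (fun t => lo t.toAdd) fun _ _ => lo_add _ _

theorem up_mem_of_unit (hR : Function.Surjective (Int.castRingHom R))
    {Γ : Subgroup (GL (Fin 2) R)} {a : R} (ha : IsUnit a) (h : up a ∈ Γ) (t : R) : up t ∈ Γ := by
  obtain ⟨u, rfl⟩ := ha
  obtain ⟨k, hk⟩ := hR (t * ↑u⁻¹)
  have e : t = k • (u : R) := by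
    rw [zsmul_eq_mul, ← eq_intCast (Int.castRingHom R), hk, mul_assoc, Units.inv_mul, mul_one]
  have h1 : up t = up (u : R) ^ k := by
    have h2 := map_zpow (upHom R) (Multiplicative.ofAdd (u : R)) k
    rw [← ofAdd_zsmul, ← e] at h2
    exact h2
  rw [h1]
  exact Γ.zpow_mem h k

theorem lo_mem_of_unit (hR : Function.Surjective (Int.castRingHom R))
    {Γ : Subgroup (GL (Fin 2) R)} {a : R} (ha : IsUnit a) (h : lo a ∈ Γ) (t : R) : lo t ∈ Γ := by
  obtain ⟨u, rfl⟩ := ha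
  obtain ⟨k, hk⟩ := hR (t * ↑u⁻¹)
  have e : t = k • (u : R) := by
    rw [zsmul_eq_mul, ← eq_intCast (Int.castRingHom R), hk, mul_assoc, Units.inv_mul, mul_one]
  have h1 : lo t = lo (u : R) ^ k := by
    have h2 := map_zpow (loHom R) (Multiplicative.ofAdd (u : R)) k
    rw [← ofAdd_zsmul, ← e] at h2
    exact h2
  rw [h1]
  exact Γ.zpow_mem h k

theorem mem_of_unit_entry {Γ : Subgroup (GL (Fin 2) R)} (hu : ∀ t, up t ∈ Γ)
    (hl : ∀ t, lo t ∈ Γ) (g : GL (Fin 2) R) (hg : g.1.det = 1) (hc : IsUnit (g.1 1 0)) :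
    g ∈ Γ := by
  obtain ⟨u, hu'⟩ := hc
  have hdet := hg
  rw [Matrix.det_fin_two] at hdet
  have key : g = up ((g.1 0 0 - 1) * ↑u⁻¹) * lo (g.1 1 0) * up ((g.1 1 1 - 1) * ↑u⁻¹) := by
    apply Units.ext
    rw [Units.val_mul, Units.val_mul, up_val, up_val, lo_val]
    have hui : (↑u⁻¹ : R) * g.1 1 0 = 1 := by rw [← hu', Units.inv_mul]
    ext i j
    fin_cases i <;> fin_cases j
    · simp only [Fin.zero_eta, Fin.isValue, mul_apply, Fin.sum_univ_two, of_apply, cons_val', cons_val_zero, cons_val_one,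
        cons_val_fin_one]
      linear_combination (-(g.1 0 0 - 1)) * hui
    · simp only [Fin.zero_eta, Fin.mk_one, Fin.isValue, mul_apply, Fin.sum_univ_two, of_apply, cons_val', cons_val_zero, cons_val_one,
        cons_val_fin_one]
      linear_combination (-(g.1 0 1) -(g.1 0 0 - 1) * (g.1 1 1 - 1) * ↑u⁻¹) * hui - ↑u⁻¹ * hdet
    · simp only [Fin.zero_eta, Fin.mk_one, Fin.isValue, mul_apply, Fin.sum_univ_two, of_apply, cons_val', cons_val_zero, cons_val_one,
        cons_val_fin_one]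
      ring
    · simp only [Fin.zero_eta, Fin.mk_one, Fin.isValue, mul_apply, Fin.sum_univ_two, of_apply, cons_val', cons_val_zero, cons_val_one,
        cons_val_fin_one]
      linear_combination (-(g.1 1 1 - 1)) * hui
  rw [key]
  exact Γ.mul_mem (Γ.mul_mem (hu _) (hl _)) (hu _)

theorem mem_of_det_one [IsLocalRing R] {Γ : Subgroup (GL (Fin 2) R)} (hu : ∀ t, up t ∈ Γ)
    (hl : ∀ t, lo t ∈ Γ) (g : GL (Fin 2) R) (hg : g.1.det = 1) : g ∈ Γ := by
  by_cases hc : IsUnit (g.1 1 0)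
  · exact mem_of_unit_entry hu hl g hg hc
  have ha : IsUnit (g.1 0 0 + g.1 1 0) := by
    by_contra hcon
    have h1 : g.1 0 0 ∈ IsLocalRing.maximalIdeal R := by
      have h2 := (IsLocalRing.maximalIdeal R).sub_mem ((IsLocalRing.mem_maximalIdeal _).mpr hcon)
        ((IsLocalRing.mem_maximalIdeal _).mpr hc)
      rwa [add_sub_cancel_right] at h2
    have h3 : (1 : R) ∈ IsLocalRing.maximalIdeal R := by
      rw [← hg, Matrix.det_fin_two]
      exact (IsLocalRing.maximalIdeal R).sub_mem (Ideal.mul_mem_right _ _ h1)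
        (Ideal.mul_mem_left _ _ ((IsLocalRing.mem_maximalIdeal _).mpr hc))
    exact (IsLocalRing.mem_maximalIdeal _).mp h3 isUnit_one
  have e : (lo (1 : R) * g).1 1 0 = g.1 0 0 + g.1 1 0 := by
    rw [Units.val_mul, lo_val]
    simp [Matrix.mul_apply, Fin.sum_univ_two]
  have h1 : lo (1 : R) * g ∈ Γ := by
    refine mem_of_unit_entry hu hl _ ?_ (by rw [e]; exact ha)
    rw [Units.val_mul, Matrix.det_mul, hg, lo_val]
    simp
  have h2 := Γ.mul_mem (Γ.inv_mem (hl 1)) h1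
  rwa [inv_mul_cancel_left] at h2

/-- A square-zero matrix killing the first basis vector and hitting it. -/
theorem eq_of_sq_zero {A : Matrix (Fin 2) (Fin 2) R} {z : Fin 2 → R}
    (h0 : A.mulVec ![1, 0] = 0) (hz : A.mulVec z = ![1, 0]) :
    A = !![0, A 0 1; 0, 0] ∧ IsUnit (A 0 1) := by
  have h00 := congrFun h0 0
  have h10 := congrFun h0 1
  have hz0 := congrFun hz 0
  have hz1 := congrFun hz 1
  simp only [mulVec, dotProduct, Fin.sum_univ_two, Pi.zero_apply, cons_val_zero, cons_val_one,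
    cons_val_fin_one, mul_one, mul_zero, add_zero] at h00 h10 hz0 hz1
  rw [h00, zero_mul, zero_add] at hz0
  rw [h10, zero_mul, zero_add] at hz1
  have h11 : A 1 1 = 0 := by
    calc A 1 1 = A 1 1 * (A 0 1 * z 1) := by rw [hz0, mul_one]
      _ = A 0 1 * (A 1 1 * z 1) := by ring
      _ = 0 := by rw [hz1, mul_zero]
  refine ⟨?_, IsUnit.of_mul_eq_one _ hz0⟩
  ext i j
  fin_cases i <;> fin_cases j
  · exact h00
  · rfl
  · exact h10
  · exact h11

theorem eq_of_sq_zero' {A : Matrix (Fin 2) (Fin 2) R} {z : Fin 2 → R}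
    (h0 : A.mulVec ![0, 1] = 0) (hz : A.mulVec z = ![0, 1]) :
    A = !![0, 0; A 1 0, 0] ∧ IsUnit (A 1 0) := by
  have h00 := congrFun h0 0
  have h10 := congrFun h0 1
  have hz0 := congrFun hz 0
  have hz1 := congrFun hz 1
  simp only [mulVec, dotProduct, Fin.sum_univ_two, Pi.zero_apply, cons_val_zero, cons_val_one,
    cons_val_fin_one, mul_one, mul_zero, zero_add] at h00 h10 hz0 hz1
  rw [h00, zero_mul, add_zero] at hz0
  rw [h10, zero_mul, add_zero] at hz1
  have h11 : A 0 0 = 0 := by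
    calc A 0 0 = A 0 0 * (A 1 0 * z 0) := by rw [hz1, mul_one]
      _ = A 1 0 * (A 0 0 * z 0) := by ring
      _ = 0 := by rw [hz0, mul_zero]
  refine ⟨?_, IsUnit.of_mul_eq_one _ hz1⟩
  ext i j
  fin_cases i <;> fin_cases j
  · exact h11
  · exact h00
  · rfl
  · exact h10

/-- **Generation of `SL₂` by two transvections.** -/
theorem mem_closure_of_det_one [IsLocalRing R] (hR : Function.Surjective (Int.castRingHom R))
    (U₁ U₂ : GL (Fin 2) R) (h₁ : (U₁.1 - 1) * (U₁.1 - 1) = 0) (h₂ : (U₂.1 - 1) * (U₂.1 - 1) = 0)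
    (w₁ w₂ : Fin 2 → R)
    (hdet : IsUnit (Matrix.det (Matrix.of ![(U₁.1 - 1).mulVec w₁, (U₂.1 - 1).mulVec w₂])))
    (g : GL (Fin 2) R) (hg : g.1.det = 1) : g ∈ Subgroup.closure {U₁, U₂} := by
  set M : Matrix (Fin 2) (Fin 2) R :=
    (Matrix.of ![(U₁.1 - 1).mulVec w₁, (U₂.1 - 1).mulVec w₂])ᵀ with hM
  have hMdet : IsUnit M.det := by rw [hM, Matrix.det_transpose]; exact hdet
  set P : GL (Fin 2) R := Matrix.GeneralLinearGroup.mk'' M hMdet with hP
  have hPv : P.1 = M := rfl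
  have hP0 : P.1.mulVec ![1, 0] = (U₁.1 - 1).mulVec w₁ := by
    rw [hPv]
    ext i
    simp only [hM, mulVec, dotProduct, Fin.sum_univ_two, cons_val_zero, cons_val_one,
      cons_val_fin_one, mul_one, mul_zero, add_zero, transpose_apply, of_apply]
  have hP1 : P.1.mulVec ![0, 1] = (U₂.1 - 1).mulVec w₂ := by
    rw [hPv]
    ext i
    simp only [hM, mulVec, dotProduct, Fin.sum_univ_two, cons_val_zero, cons_val_one,
      cons_val_fin_one, mul_one, mul_zero, zero_add, transpose_apply, of_apply]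
  have hinv : (P⁻¹).1 * P.1 = 1 := by rw [← Units.val_mul, inv_mul_cancel, Units.val_one]
  have hinv' : P.1 * (P⁻¹).1 = 1 := by rw [← Units.val_mul, mul_inv_cancel, Units.val_one]
  have c1 : ∀ w, (P⁻¹).1.mulVec (P.1.mulVec w) = w := fun w => by
    rw [Matrix.mulVec_mulVec, hinv, Matrix.one_mulVec]
  have c2 : ∀ w, P.1.mulVec ((P⁻¹).1.mulVec w) = w := fun w => by
    rw [Matrix.mulVec_mulVec, hinv', Matrix.one_mulVec]
  -- the conjugates
  have hA : ∀ w, ((P⁻¹).1 * (U₁.1 - 1) * P.1).mulVec w =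
      (P⁻¹).1.mulVec ((U₁.1 - 1).mulVec (P.1.mulVec w)) := fun w => by
    rw [Matrix.mulVec_mulVec, Matrix.mulVec_mulVec, mul_assoc]
  have hB : ∀ w, ((P⁻¹).1 * (U₂.1 - 1) * P.1).mulVec w =
      (P⁻¹).1.mulVec ((U₂.1 - 1).mulVec (P.1.mulVec w)) := fun w => by
    rw [Matrix.mulVec_mulVec, Matrix.mulVec_mulVec, mul_assoc]
  obtain ⟨eA, uA⟩ := eq_of_sq_zero (A := (P⁻¹).1 * (U₁.1 - 1) * P.1) (z := (P⁻¹).1.mulVec w₁)
    (by
      have e := Matrix.mulVec_mulVec w₁ (U₁.1 - 1) (U₁.1 - 1)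
      rw [h₁, Matrix.zero_mulVec] at e
      rw [hA, hP0, e, Matrix.mulVec_zero])
    (by rw [hA, c2, ← hP0, c1])
  obtain ⟨eB, uB⟩ := eq_of_sq_zero' (A := (P⁻¹).1 * (U₂.1 - 1) * P.1) (z := (P⁻¹).1.mulVec w₂)
    (by
      have e := Matrix.mulVec_mulVec w₂ (U₂.1 - 1) (U₂.1 - 1)
      rw [h₂, Matrix.zero_mulVec] at e
      rw [hB, hP1, e, Matrix.mulVec_zero])
    (by rw [hB, c2, ← hP1, c1])
  set a := ((P⁻¹).1 * (U₁.1 - 1) * P.1) 0 1 with ha
  set b := ((P⁻¹).1 * (U₂.1 - 1) * P.1) 1 0 with hb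
  have eA' : P⁻¹ * U₁ * P = up a := by
    apply Units.ext
    rw [Units.val_mul, Units.val_mul, up_val]
    have : (P⁻¹).1 * U₁.1 * P.1 = 1 + (P⁻¹).1 * (U₁.1 - 1) * P.1 := by
      rw [mul_sub, mul_one, sub_mul, hinv]; abel
    rw [this, eA]
    ext i j; fin_cases i <;> fin_cases j <;> simp
  have eB' : P⁻¹ * U₂ * P = lo b := by
    apply Units.ext
    rw [Units.val_mul, Units.val_mul, lo_val]
    have : (P⁻¹).1 * U₂.1 * P.1 = 1 + (P⁻¹).1 * (U₂.1 - 1) * P.1 := by
      rw [mul_sub, mul_one, sub_mul, hinv]; abel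
    rw [this, eB]
    ext i j; fin_cases i <;> fin_cases j <;> simp
  -- the subgroup
  set Γ : Subgroup (GL (Fin 2) R) := (Subgroup.closure {U₁, U₂}).comap (MulAut.conj P).toMonoidHom
    with hΓ
  have m1 : ∀ x : GL (Fin 2) R, x ∈ Subgroup.closure {U₁, U₂} → P⁻¹ * x * P ∈ Γ := fun x hx => by
    rw [hΓ, Subgroup.mem_comap]
    show P * (P⁻¹ * x * P) * P⁻¹ ∈ _
    have : P * (P⁻¹ * x * P) * P⁻¹ = x := by group
    rwa [this]
  have mu : ∀ t, up t ∈ Γ := up_mem_of_unit hR uA (by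
    rw [← eA']; exact m1 _ (Subgroup.subset_closure (by simp)))
  have ml : ∀ t, lo t ∈ Γ := lo_mem_of_unit hR uB (by
    rw [← eB']; exact m1 _ (Subgroup.subset_closure (by simp)))
  have hfin : P⁻¹ * g * P ∈ Γ := by
    refine mem_of_det_one mu ml _ ?_
    rw [Units.val_mul, Units.val_mul, Matrix.det_mul, Matrix.det_mul, hg, mul_one,
      ← Matrix.det_mul, hinv, Matrix.det_one]
  rw [hΓ, Subgroup.mem_comap] at hfin
  have : P * (P⁻¹ * g * P) * P⁻¹ = g := by group
  rw [← this]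
  exact hfin

end Fermat.Agent.P2.Sel
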