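import Fermat.Agent.P2.Sel.Cheb
import Fermat.Agent.P2.Sel.GenMat

/-!
# P2, block 2a: a Selmer class vanishing on `ker ρₙ` is trivial
-/

set_option autoImplicit false
set_option linter.unusedSectionVars false

noncomputable section

open Pointwise Module

namespace Fermat.Agent.P2.Sel

local notation "Ω" => AlgebraicClosure ℚ

variable {V : Type} [AddCommGroup V] [Module (ZMod 2) V]
  {ρ : Representation (ZMod 2) GQ V} {S : Finset ℕ}

/-- `u` lies in a decomposition group at a bad prime and acts as a transposition. -/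
def BadElt (ρ : Representation (ZMod 2) GQ V) (S : Finset ℕ) (u : GQ) : Prop :=
  ρ u ≠ 1 ∧ ρ u * ρ u = 1 ∧
    ∃ ℓ ∈ S, ∃ P : ValuationSubring Ω, P.LiesOverPrime ℓ ∧ u ∈ P.decompositionSubgroup ℚ

/-- Generation hypothesis at a finite level `ρₙ`. -/
def GenHyp (ρ : Representation (ZMod 2) GQ V) (S : Finset ℕ) {X : Type} [Group X]
    (ρn : GQ →* X) : Prop :=
  ∃ u₁ u₂ : GQ, BadElt ρ S u₁ ∧ BadElt ρ S u₂ ∧
    LinearMap.range (ρ u₁ - 1) ≠ LinearMap.range (ρ u₂ - 1) ∧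
    (Subgroup.closure {u₁, u₂} ⊔ ρn.ker).Normal

/-- the zero set of a cocycle is a subgroup -/
def zeroSubgroup {f : GQ → V} (hf : IsCoc ρ f) : Subgroup GQ where
  carrier := {g | f g = 0}
  one_mem' := hf.one
  mul_mem' := by
    intro a b ha hb
    show f (a * b) = 0
    rw [hf, show f a = 0 from ha, show f b = 0 from hb, map_zero, add_zero]
  inv_mem' := by
    intro a ha
    show f a⁻¹ = 0
    rw [hf.inv, show f a = 0 from ha, map_zero, neg_zero]

theorem mem_zeroSubgroup {f : GQ → V} (hf : IsCoc ρ f) {g : GQ} :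
    g ∈ zeroSubgroup hf ↔ f g = 0 := Iff.rfl

/-- The line condition forces `f u ∈ (u - 1) V` for the elements of `D_P` acting as
transpositions. -/
theorem BadElt.mem_range (H : Hyp ρ S) {u : GQ} (hu : BadElt ρ S u) {f : GQ → V}
    (hl : ∀ ℓ ∈ S, ∀ P : ValuationSubring Ω, P.LiesOverPrime ℓ → LineAt ρ P f) :
    f u ∈ LinearMap.range (ρ u - 1) := by
  obtain ⟨h1, h2, ℓ, hℓ, P, hP, hD⟩ := hu
  obtain ⟨x, hx⟩ := hl ℓ hℓ P hP
  have h3 := hx u hD u hD
  have h4 : f u - (ρ u x - x) ∈ LinearMap.range (ρ u - 1) := by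
    rw [range_eq_ker H.finrank_eq h1 h2, LinearMap.mem_ker, LinearMap.sub_apply, h3,
      Module.End.one_apply, sub_self]
  have h5 : ρ u x - x ∈ LinearMap.range (ρ u - 1) := ⟨x, rfl⟩
  have h6 := Submodule.add_mem _ h4 h5
  rwa [sub_add_cancel] at h6

theorem inf_eq_bot_of_ne (hV : finrank (ZMod 2) V = 2) {T₁ T₂ : Module.End (ZMod 2) V}
    (h1 : T₁ ≠ 1) (h1' : T₁ * T₁ = 1) (h2 : T₂ ≠ 1) (h2' : T₂ * T₂ = 1)
    (hne : LinearMap.range (T₁ - 1) ≠ LinearMap.range (T₂ - 1)) :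
    LinearMap.range (T₁ - 1) ⊓ LinearMap.range (T₂ - 1) = ⊥ := by
  have : FiniteDimensional (ZMod 2) V := Module.finite_of_finrank_pos (by rw [hV]; norm_num)
  by_contra hcon
  have e1 := finrank_range hV h1 h1'
  have e2 := finrank_range hV h2 h2'
  have h3 : finrank (ZMod 2) ↥(LinearMap.range (T₁ - 1) ⊓ LinearMap.range (T₂ - 1)) ≠ 0 := by
    rw [Ne, Submodule.finrank_eq_zero]
    exact hcon
  have h4 : LinearMap.range (T₁ - 1) ⊓ LinearMap.range (T₂ - 1) = LinearMap.range (T₁ - 1) :=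
    Submodule.eq_of_le_of_finrank_le inf_le_left (by omega)
  have h5 : LinearMap.range (T₁ - 1) ⊓ LinearMap.range (T₂ - 1) = LinearMap.range (T₂ - 1) :=
    Submodule.eq_of_le_of_finrank_le inf_le_right (by omega)
  exact hne (h4.symm.trans h5)

theorem sup_eq_top_of_ne (hV : finrank (ZMod 2) V = 2) {T₁ T₂ : Module.End (ZMod 2) V}
    (h1 : T₁ ≠ 1) (h1' : T₁ * T₁ = 1) (h2 : T₂ ≠ 1) (h2' : T₂ * T₂ = 1)
    (hne : LinearMap.range (T₁ - 1) ≠ LinearMap.range (T₂ - 1)) :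
    LinearMap.range (T₁ - 1) ⊔ LinearMap.range (T₂ - 1) = ⊤ := by
  have : FiniteDimensional (ZMod 2) V := Module.finite_of_finrank_pos (by rw [hV]; norm_num)
  apply Submodule.eq_top_of_finrank_eq
  have e1 := finrank_range hV h1 h1'
  have e2 := finrank_range hV h2 h2'
  have h3 := Submodule.finrank_sup_add_finrank_inf_eq (LinearMap.range (T₁ - 1))
    (LinearMap.range (T₂ - 1))
  rw [inf_eq_bot_of_ne hV h1 h1' h2 h2' hne, finrank_bot, e1, e2] at h3
  omega

/-- **Non-vanishing.** A cocycle satisfying the line conditions at the bad primes and vanishing on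
`ker ρₙ` is a coboundary. -/
theorem eq_cob_of_vanish (H : Hyp ρ S) {X : Type} [Group X] {ρn : GQ →* X}
    (hker : ∀ g, ρn g = 1 → ρ g = 1) (hgen : GenHyp ρ S ρn) {f : GQ → V} (hf : IsCoc ρ f)
    (hl : ∀ ℓ ∈ S, ∀ P : ValuationSubring Ω, P.LiesOverPrime ℓ → LineAt ρ P f)
    (h0 : ∀ g, ρn g = 1 → f g = 0) : ∃ x, f = cob ρ x := by
  have hV := H.finrank_eq
  obtain ⟨u₁, u₂, b1, b2, hne, hN⟩ := hgen
  obtain ⟨x₁, hx₁⟩ := b1.mem_range H hl
  obtain ⟨x₂, hx₂⟩ := b2.mem_range H hl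
  obtain ⟨p1, p1', -⟩ := b1
  obtain ⟨p2, p2', -⟩ := b2
  have hsup := sup_eq_top_of_ne hV p1 p1' p2 p2' hne
  have hinf := inf_eq_bot_of_ne hV p1 p1' p2 p2' hne
  obtain ⟨a, ha, b, hb, hab⟩ := Submodule.mem_sup.mp
    (show x₁ - x₂ ∈ LinearMap.range (ρ u₁ - 1) ⊔ LinearMap.range (ρ u₂ - 1) by
      rw [hsup]; trivial)
  rw [range_eq_ker hV p1 p1', LinearMap.mem_ker] at ha
  rw [range_eq_ker hV p2 p2', LinearMap.mem_ker] at hb
  set x := x₁ - a with hx
  have hx' : x = x₂ + b := by rw [hx, sub_eq_iff_eq_add, add_assoc, add_comm b a, hab]; abel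
  refine ⟨x, ?_⟩
  set F : GQ → V := f - cob ρ x with hF
  have hFc : IsCoc ρ F := by
    intro g h
    have e1 := hf g h
    have e2 := isCoc_cob (ρ := ρ) x g h
    show f (g * h) - cob ρ x (g * h) = (f g - cob ρ x g) + ρ g (f h - cob ρ x h)
    rw [e1, e2, map_sub (ρ g)]
    abel
  have hF1 : F u₁ = 0 := by
    rw [hF, Pi.sub_apply, cob_apply, ← hx₁, hx, map_sub]
    rw [LinearMap.sub_apply, Module.End.one_apply] at ha ⊢
    rw [sub_eq_zero] at ha
    rw [ha]; abel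
  have hF2 : F u₂ = 0 := by
    rw [hF, Pi.sub_apply, cob_apply, ← hx₂, hx', map_add]
    rw [LinearMap.sub_apply, Module.End.one_apply] at hb ⊢
    rw [sub_eq_zero] at hb
    rw [hb]; abel
  have hFk : ∀ g, ρn g = 1 → F g = 0 := by
    intro g hg
    rw [hF, Pi.sub_apply, cob_apply, h0 g hg, hker g hg, Module.End.one_apply, sub_self, sub_self]
  set N := Subgroup.closure {u₁, u₂} ⊔ ρn.ker with hNdef
  have hle : N ≤ zeroSubgroup hFc := by
    refine sup_le ?_ fun g hg => hFk g hg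
    rw [Subgroup.closure_le]
    rintro g (rfl | rfl)
    · exact hF1
    · exact hF2
  have hu1 : u₁ ∈ N := Subgroup.mem_sup_left (Subgroup.subset_closure (by simp))
  have hu2 : u₂ ∈ N := Subgroup.mem_sup_left (Subgroup.subset_closure (by simp))
  have hfix : ∀ n ∈ N, ∀ g, ρ n (F g) = F g := by
    intro n hn g
    have h1 : F (n * g) = ρ n (F g) := by
      rw [hFc, (mem_zeroSubgroup hFc).mp (hle hn), zero_add]
    have h2 : F (n * g) = F g := by
      have h3 : n * g = g * (g⁻¹ * n * g) := by group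
      have h4 : g⁻¹ * n * g ∈ N := by
        have := hN.conj_mem n hn g⁻¹
        rwa [inv_inv] at this
      rw [h3, hFc, (mem_zeroSubgroup hFc).mp (hle h4), map_zero, add_zero]
    rw [← h1, h2]
  have hFz : F = 0 := by
    funext g
    have m1 : F g ∈ LinearMap.range (ρ u₁ - 1) := by
      rw [range_eq_ker hV p1 p1', LinearMap.mem_ker, LinearMap.sub_apply, hfix u₁ hu1,
        Module.End.one_apply, sub_self]
    have m2 : F g ∈ LinearMap.range (ρ u₂ - 1) := by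
      rw [range_eq_ker hV p2 p2', LinearMap.mem_ker, LinearMap.sub_apply, hfix u₂ hu2,
        Module.End.one_apply, sub_self]
    have m3 : F g ∈ LinearMap.range (ρ u₁ - 1) ⊓ LinearMap.range (ρ u₂ - 1) := ⟨m1, m2⟩
    rw [hinf] at m3
    exact (Submodule.mem_bot _).mp m3
  exact sub_eq_zero.mp hFz

/-- The Selmer form of non-vanishing. -/
theorem exists_ne_zero_of_notMem (H : Hyp ρ S) {X : Type} [Group X] {ρn : GQ →* X}
    (hker : ∀ g, ρn g = 1 → ρ g = 1) (hgen : GenHyp ρ S ρn) {Q : Finset ℕ} {f : GQ → V}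
    (hf : f ∈ Selmer ρ S Q) (hne : f ∉ LinearMap.range (cob ρ)) :
    ∃ h, ρn h = 1 ∧ f h ≠ 0 := by
  by_contra hcon
  push Not at hcon
  obtain ⟨x, hx⟩ := eq_cob_of_vanish H hker hgen hf.1
    (fun ℓ hℓ P hP => hf.2.2.2 ℓ trivial (Or.inl hℓ) P hP) hcon
  exact hne ⟨x, hx.symm⟩

end Fermat.Agent.P2.Sel
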