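import Fermat.Agent.P2.Sel.Gen

/-!
# P2, block 2a: the generation hypothesis from a transvection in a decomposition group
-/

set_option autoImplicit false
set_option linter.unusedSectionVars false

noncomputable section

open Pointwise Module Matrix

namespace Fermat.Agent.P2.Sel

local notation "Ω" => AlgebraicClosure ℚ

variable {V : Type} [AddCommGroup V] [Module (ZMod 2) V]
  {ρ : Representation (ZMod 2) GQ V} {S : Finset ℕ}

theorem liesOver_smul {A : ValuationSubring Ω} {q : ℕ} (h : A.LiesOverPrime q) (g : GQ) :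
    (g • A).LiesOverPrime q := by
  unfold ValuationSubring.LiesOverPrime at h ⊢
  rw [← TWP.Place.apply_mem_nonunits_smul A g] at h
  simpa using h

/-- A subgroup of `GL₂(R)` containing `SL₂(R)` is normal. -/
theorem normal_of_det {R : Type} [CommRing R] (Γ : Subgroup (GL (Fin 2) R))
    (h : ∀ g : GL (Fin 2) R, g.1.det = 1 → g ∈ Γ) : Γ.Normal := by
  refine ⟨fun x hx g => ?_⟩
  have h1 : g * x * g⁻¹ * x⁻¹ ∈ Γ := by
    apply h
    have h2 : Matrix.GeneralLinearGroup.det (g * x * g⁻¹ * x⁻¹) = 1 := by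
      rw [map_mul, map_mul, map_mul, map_inv, map_inv, mul_right_comm, mul_inv_cancel_right,
        mul_inv_cancel]
    exact congrArg Units.val h2
  have h3 : g * x * g⁻¹ = g * x * g⁻¹ * x⁻¹ * x := by group
  rw [h3]
  exact Γ.mul_mem h1 hx

/-- `ρₙ` reduces to `ρ` in the basis `b`. -/
def Reduces (b : Basis (Fin 2) (ZMod 2) V) (ρ : Representation (ZMod 2) GQ V) {R : Type}
    [CommRing R] (π : R →+* ZMod 2) (ρn : GQ →* GL (Fin 2) R) : Prop :=
  ∀ g, LinearMap.toMatrix b b (ρ g) = (ρn g).1.map π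

variable {R : Type} [CommRing R] {π : R →+* ZMod 2} {ρn : GQ →* GL (Fin 2) R}
  {b : Basis (Fin 2) (ZMod 2) V}

theorem Reduces.ker_le (hred : Reduces b ρ π ρn) (g : GQ) (hg : ρn g = 1) : ρ g = 1 := by
  apply (LinearMap.toMatrix b b).injective
  rw [hred g, hg, LinearMap.toMatrix_one]
  ext i j
  simp [Matrix.one_apply, Matrix.map_apply, apply_ite π]

theorem Reduces.sub_one (hred : Reduces b ρ π ρn) (g : GQ) :
    LinearMap.toMatrix b b (ρ g - 1) = ((ρn g).1 - 1).map π := by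
  rw [map_sub, hred g, LinearMap.toMatrix_one]
  ext i j
  simp [Matrix.one_apply, Matrix.map_apply, apply_ite π]

theorem Reduces.sq (hred : Reduces b ρ π ρn) {u : GQ}
    (hu : ((ρn u).1 - 1) * ((ρn u).1 - 1) = 0) : ρ u * ρ u = 1 := by
  have h1 : (ρ u - 1) * (ρ u - 1) = 0 := by
    apply (LinearMap.toMatrix b b).injective
    rw [LinearMap.toMatrix_mul, hred.sub_one, ← Matrix.map_mul, hu]
    ext i j
    simp
  refine LinearMap.ext fun x => ?_
  have h2 := LinearMap.congr_fun h1 x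
  have h3 : ρ u (ρ u x - x) - (ρ u x - x) = 0 := h2
  rw [map_sub, sub_eq_add, sub_eq_add, sub_eq_add, add_assoc, ← add_assoc (ρ u x) (ρ u x) x,
    add_self, zero_add] at h3
  have h4 : ρ u (ρ u x) = -x := eq_neg_of_add_eq_zero_left h3
  rw [Module.End.mul_apply, h4, neg_eq, Module.End.one_apply]

/-- lift a vector -/
theorem exists_lift_vec (hπ : Function.Surjective π) (x : V) :
    ∃ w : Fin 2 → R, (fun i => π (w i)) = b.repr x := by
  choose s hs using hπ
  exact ⟨fun i => s (b.repr x i), by ext i; exact hs _⟩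

theorem Reduces.mulVec (hred : Reduces b ρ π ρn) {g : GQ} {x : V} {w : Fin 2 → R}
    (hw : (fun i => π (w i)) = b.repr x) :
    (fun i => π ((((ρn g).1 - 1).mulVec w) i)) = b.repr ((ρ g - 1) x) := by
  have h1 := LinearMap.toMatrix_mulVec_repr b b (ρ g - 1) x
  rw [hred.sub_one g] at h1
  rw [← h1, ← hw]
  ext i
  simp only [Matrix.mulVec, dotProduct, map_sum, map_mul, Matrix.map_apply]

theorem eq_of_det_eq_zero : ∀ a b c d : ZMod 2, ¬ (a = 0 ∧ b = 0) → ¬ (c = 0 ∧ d = 0) →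
    a * d - b * c = 0 → a = c ∧ b = d := by decide

/-- **The generation hypothesis** holds as soon as a decomposition group at a bad prime contains an
element `u` with `(ρₙ(u) - 1)² = 0` and `ρ(u) ≠ 1`. -/
theorem genHyp_of_transvection (H : Hyp ρ S) [IsLocalRing R]
    (hR : Function.Surjective (Int.castRingHom R)) (hπ : Function.Surjective π)
    (hred : Reduces b ρ π ρn) {u : GQ} {ℓ : ℕ} (hℓ : ℓ ∈ S) {P : ValuationSubring Ω}
    (hP : P.LiesOverPrime ℓ) (hu : u ∈ P.decompositionSubgroup ℚ)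
    (hsq : ((ρn u).1 - 1) * ((ρn u).1 - 1) = 0) (hu1 : ρ u ≠ 1) : GenHyp ρ S ρn := by
  have := finiteDimensional_V H
  have hV := H.finrank_eq
  have hu2 := hred.sq hsq
  -- a vector moved off the line
  have hrank := finrank_range hV hu1 hu2
  obtain ⟨e, he0⟩ : ∃ e : LinearMap.range (ρ u - 1), e ≠ 0 := by
    by_contra hcon
    push Not at hcon
    have : Subsingleton (LinearMap.range (ρ u - 1)) := ⟨fun a b => by rw [hcon a, hcon b]⟩
    rw [finrank_zero_of_subsingleton] at hrank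
    exact zero_ne_one hrank
  have he0' : e.1 ≠ 0 := fun h => he0 (Subtype.ext h)
  obtain ⟨y, hy⟩ : ∃ y, y ∉ LinearMap.range (ρ u - 1) := by
    by_contra hcon
    push Not at hcon
    have h1 : LinearMap.range (ρ u - 1) = ⊤ := eq_top_iff.mpr fun y _ => hcon y
    rw [h1, finrank_top, hV] at hrank
    omega
  have hy0 : y ≠ 0 := fun h => hy (h ▸ Submodule.zero_mem _)
  obtain ⟨A, hA⟩ := exists_linearEquiv_apply_eq he0' hy0
  obtain ⟨τ, hτ⟩ := H.surj A
  set u' : GQ := τ * u * τ⁻¹ with hu'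
  have hττ : ρ τ * ρ τ⁻¹ = 1 := by rw [← map_mul, mul_inv_cancel, map_one]
  have hττ' : ρ τ⁻¹ * ρ τ = 1 := by rw [← map_mul, inv_mul_cancel, map_one]
  have hρu' : ρ u' = ρ τ * ρ u * ρ τ⁻¹ := by rw [hu', map_mul, map_mul]
  have hsub : ρ u' - 1 = ρ τ * (ρ u - 1) * ρ τ⁻¹ := by
    rw [hρu', mul_sub, mul_one, sub_mul, hττ]
  have hu1' : ρ u' ≠ 1 := by
    intro h
    apply hu1
    have h1 : ρ u = ρ τ⁻¹ * (ρ τ * ρ u * ρ τ⁻¹) * ρ τ := by
      calc ρ u = (ρ τ⁻¹ * ρ τ) * ρ u * (ρ τ⁻¹ * ρ τ) := by rw [hττ', one_mul, mul_one]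
        _ = _ := by simp only [mul_assoc]
    rw [h1, ← hρu', h, mul_one, hττ']
  have hsq' : ((ρn u').1 - 1) * ((ρn u').1 - 1) = 0 := by
    have e1 : (ρn τ).1 * ((ρn τ)⁻¹).1 = 1 := by rw [← Units.val_mul, mul_inv_cancel, Units.val_one]
    have e2 : ((ρn τ)⁻¹).1 * (ρn τ).1 = 1 := by rw [← Units.val_mul, inv_mul_cancel, Units.val_one]
    have e3 : (ρn u').1 - 1 = (ρn τ).1 * ((ρn u).1 - 1) * ((ρn τ)⁻¹).1 := by
      rw [hu', map_mul, map_mul, map_inv, Units.val_mul, Units.val_mul, mul_sub, mul_one, sub_mul,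
        e1]
    rw [e3]
    calc (ρn τ).1 * ((ρn u).1 - 1) * ((ρn τ)⁻¹).1 * ((ρn τ).1 * ((ρn u).1 - 1) * ((ρn τ)⁻¹).1)
        = (ρn τ).1 * ((ρn u).1 - 1) * (((ρn τ)⁻¹).1 * (ρn τ).1) * ((ρn u).1 - 1) *
            ((ρn τ)⁻¹).1 := by simp only [mul_assoc]
      _ = (ρn τ).1 * (((ρn u).1 - 1) * ((ρn u).1 - 1)) * ((ρn τ)⁻¹).1 := by
          rw [e2, mul_one]; simp only [mul_assoc]
      _ = 0 := by rw [hsq, mul_zero, zero_mul]
  have hu2' := hred.sq hsq'
  -- `y` lies in the second line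
  have hy' : y ∈ LinearMap.range (ρ u' - 1) := by
    obtain ⟨z, hz⟩ := e.2
    refine ⟨ρ τ z, ?_⟩
    rw [hsub, Module.End.mul_apply, Module.End.mul_apply, ← Module.End.mul_apply (ρ τ⁻¹), hττ',
      Module.End.one_apply, hz, hτ]
    exact hA
  have hne : LinearMap.range (ρ u - 1) ≠ LinearMap.range (ρ u' - 1) := fun h => hy (h ▸ hy')
  have hinf := inf_eq_bot_of_ne hV hu1 hu2 hu1' hu2' hne
  refine ⟨u, u', ⟨hu1, hu2, ℓ, hℓ, P, hP, hu⟩, ⟨hu1', hu2', ℓ, hℓ, τ • P,
    liesOver_smul hP τ, TWP.Place.decomposition_conj τ hu⟩, hne, ?_⟩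
  -- generation
  obtain ⟨z₂, hz₂⟩ := hy'
  obtain ⟨z₁, hz₁⟩ := e.2
  obtain ⟨w₁, hw₁⟩ := exists_lift_vec (b := b) hπ z₁
  obtain ⟨w₂, hw₂⟩ := exists_lift_vec (b := b) hπ z₂
  have m₁ := hred.mulVec (g := u) hw₁
  have m₂ := hred.mulVec (g := u') hw₂
  rw [hz₁] at m₁
  rw [hz₂] at m₂
  have hdet : IsUnit (Matrix.det (Matrix.of
      ![((ρn u).1 - 1).mulVec w₁, ((ρn u').1 - 1).mulVec w₂])) := by
    have hloc : IsLocalHom π := IsLocalHom.of_surjective π hπ
    apply isUnit_of_map_unit π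
    rw [isUnit_iff_ne_zero]
    intro h0
    rw [Matrix.det_fin_two] at h0
    simp only [of_apply, cons_val_zero, cons_val_one, cons_val_fin_one, map_sub, map_mul] at h0
    have q1 := congrFun m₁ 0
    have q2 := congrFun m₁ 1
    have q3 := congrFun m₂ 0
    have q4 := congrFun m₂ 1
    rw [q1, q2, q3, q4] at h0
    have hcond : ∀ x : V, x ≠ 0 → ¬ (b.repr x 0 = 0 ∧ b.repr x 1 = 0) := by
      rintro x hx ⟨h1, h2⟩
      apply hx
      apply b.repr.injective
      rw [map_zero]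
      ext i
      fin_cases i
      · exact h1
      · exact h2
    obtain ⟨r1, r2⟩ := eq_of_det_eq_zero _ _ _ _ (hcond _ he0') (hcond _ hy0) h0
    have hey : e.1 = y := by
      apply b.repr.injective
      ext i
      fin_cases i
      · exact r1
      · exact r2
    apply hy
    rw [← hey]
    exact e.2
  have hgen := mem_closure_of_det_one hR (ρn u) (ρn u') hsq hsq' w₁ w₂ hdet
  have hnorm := normal_of_det _ hgen
  have hmap : (Subgroup.closure {u, u'}).map ρn = Subgroup.closure {ρn u, ρn u'} := by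
    rw [MonoidHom.map_closure, Set.image_pair]
  rw [← Subgroup.comap_map_eq, hmap]
  exact hnorm.comap ρn

end Fermat.Agent.P2.Sel
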